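import Mathlib
import Fermat.Prelude.Def_AlgebraicCurve_Correspondence

/-!
# S29 (R3, leaf Hk-CF): the Kummer relation between `p`-torsion divisor classes and characters,
and its compatibility with a Hecke correspondence (ABSTRACT)

Setting: `F / K` a function field with divisors (`AlgebraicCurve.Place`), `M` a field (the
meromorphic functions on `ℍ`), `Φ : F →+* M` (the bridge), a group `Γ` acting on `M` through ring
homomorphisms `ρ γ` (`compMer γ`), `ζ : M` a primitive `p`-th root of unity fixed by `Γ`.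

`Kum x u` (`x : Pic0 K F`, `u : Additive Γ →+ ZMod p`): there are `D ∈ x`, `f : F`, `y : M` with
`p D = div f`, `y ^ p = Φ f`, and `y ∘ γ = ζ ^ u(γ) · y` for all `γ`.

* `Kum.unique_char` : `x` determines `u`             (units of `F` are constants, `K` has `p`-th roots);
* `Kum.unique_class` : `u` determines `x`            (the converse theorem `conv`);
* `Kum.zero`, `Kum.add`, `Kum.torsion`, `Kum.exists_of_dvd` (constructor from `p ∣ ord f`);
* `Kum.hecke` : `Kum x u → Kum (T x) (Ttop u)` for the correspondence `T = α_* β^*`, given a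
  multiplicative `Hp : M →* M` with `Φ (Norm_α (β f)) = Hp (Φ f)` which transforms multipliers by
  `Ttop`;
* `exists_section` : if every `u ∈ X` is realised, there is an injective additive
  `e : X →+ Pic0.torsion K F p` with `Kum (e u) u`;
* `section_hecke` : `T (e u) = e (Ttop u)`.
-/

set_option autoImplicit false
set_option linter.unusedSectionVars false
set_option linter.style.haveILetI false

namespace Fermat.Agent.S29.Hk.Equivariant

open AlgebraicCurve

noncomputable section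

variable {K F F' M Γ : Type*} [Field K] [Field F] [Field F'] [Algebra K F] [Algebra K F']
  [Field M] [Group Γ]

/-- the hypotheses on the bridge `Φ`, the action `ρ` and the root of unity `ζ` -/
structure Bridge (K : Type*) {F M Γ : Type*} [Field K] [Field F] [Algebra K F] [Field M] [Group Γ]
    (Φ : F →+* M) (ρ : Γ → M →+* M) (ζ : M) (p : ℕ) : Prop where
  /-- `ζ` is a primitive `p`-th root of unity -/
  prim : IsPrimitiveRoot ζ p
  /-- `ζ` is fixed by `Γ` -/
  rho_zeta : ∀ γ, ρ γ ζ = ζ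
  /-- the image of `Φ` is fixed by `Γ` -/
  rho_Phi : ∀ γ f, ρ γ (Φ f) = Φ f
  /-- converse: a `Γ`-fixed element whose `p`-th power is in the image of `Φ` is in the image -/
  conv : ∀ y : M, (∀ γ, ρ γ y = y) → (∃ f, y ^ p = Φ f) → ∃ w : F, Φ w = y
  /-- an element of `F` without zeros and poles is a constant -/
  const : ∀ f : F, f ≠ 0 → (∀ v : Place K F, v.ord f = 0) → ∃ c : K, algebraMap K F c = f
  /-- `K` has `p`-th roots -/
  root : ∀ c : K, ∃ d : K, d ^ p = c

/-- **the Kummer relation** between a divisor class and a character -/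
def Kum (Φ : F →+* M) (ρ : Γ → M →+* M) (ζ : M) (p : ℕ) (x : Pic0 K F)
    (u : Additive Γ →+ ZMod p) : Prop :=
  ∃ (D : Divisor.degZero (K := K) (F := F)) (f : F) (y : M), Pic0.mk D = x ∧ f ≠ 0 ∧
    (∀ v : Place K F, (p : ℤ) * (D : Divisor K F) v = v.ord f) ∧ y ^ p = Φ f ∧
    ∀ γ : Γ, ρ γ y = ζ ^ (u (Additive.ofMul γ)).val * y

section Basic

variable {Φ : F →+* M} {ρ : Γ → M →+* M} {ζ : M} {p : ℕ}

theorem ord_pow (v : Place K F) (f : F) (n : ℕ) : v.ord (f ^ n) = n * v.ord f := by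
  have := v.ord_zpow f (n : ℤ)
  rwa [zpow_natCast] at this

/-- two degree-zero divisors in the same class differ by a principal divisor -/
theorem exists_of_mk_eq {D D' : Divisor.degZero (K := K) (F := F)}
    (h : Pic0.mk D = Pic0.mk D') :
    ∃ r : F, r ≠ 0 ∧ ∀ v : Place K F, (D' : Divisor K F) v = (D : Divisor K F) v + v.ord r := by
  have h1 : -D + D' ∈ (Divisor.principal (K := K) (F := F)).addSubgroupOf
      (Divisor.degZero (K := K) (F := F)) := QuotientAddGroup.eq.mp h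
  rw [AddSubgroup.mem_addSubgroupOf] at h1
  obtain ⟨r, hr, hD⟩ := h1
  refine ⟨r, hr, fun v => ?_⟩
  have := hD v
  rw [AddSubgroup.coe_add, AddSubgroup.coe_neg, Finsupp.add_apply, Finsupp.neg_apply] at this
  linarith

theorem mk_eq_of_forall {D D' : Divisor.degZero (K := K) (F := F)} (r : F) (hr : r ≠ 0)
    (h : ∀ v : Place K F, (D' : Divisor K F) v = (D : Divisor K F) v + v.ord r) :
    Pic0.mk D = Pic0.mk D' := by
  refine QuotientAddGroup.eq.mpr ?_
  rw [AddSubgroup.mem_addSubgroupOf]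
  refine ⟨r, hr, fun v => ?_⟩
  rw [AddSubgroup.coe_add, AddSubgroup.coe_neg, Finsupp.add_apply, Finsupp.neg_apply, h v]
  ring

theorem zeta_pow_val_add [NeZero p] (hζ : ζ ^ p = 1) (a b : ZMod p) :
    ζ ^ (a + b).val = ζ ^ a.val * ζ ^ b.val := by
  rw [ZMod.val_add, ← pow_add, pow_eq_pow_mod (a.val + b.val) hζ]

theorem root_ne_zero [NeZero p] {f : F} {y : M} (hf : f ≠ 0) (hy : y ^ p = Φ f) :
    y ≠ 0 := by
  intro h0
  rw [h0, zero_pow (NeZero.ne p)] at hy
  exact hf ((map_eq_zero Φ).mp hy.symm)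

/-- **the class determines the character** -/
theorem Kum.unique_char [NeZero p] (hB : Bridge K Φ ρ ζ p) {x : Pic0 K F}
    {u u' : Additive Γ →+ ZMod p} (h : Kum Φ ρ ζ p x u) (h' : Kum Φ ρ ζ p x u') : u = u' := by
  obtain ⟨D, f, y, hx, hf, hD, hy, hρ⟩ := h
  obtain ⟨D', f', y', hx', hf', hD', hy', hρ'⟩ := h'
  have hp0 : p ≠ 0 := NeZero.ne p
  obtain ⟨r, hr, hDD⟩ := exists_of_mk_eq (hx.trans hx'.symm)
  -- `f' / (f r^p)` is a constant
  have hfr : f * r ^ p ≠ 0 := mul_ne_zero hf (pow_ne_zero p hr)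
  have hg0 : f' / (f * r ^ p) ≠ 0 := div_ne_zero hf' hfr
  have hgord : ∀ v : Place K F, v.ord (f' / (f * r ^ p)) = 0 := by
    intro v
    rw [div_eq_mul_inv, v.ord_mul hf' (inv_ne_zero hfr), v.ord_inv,
      v.ord_mul hf (pow_ne_zero p hr), ord_pow, ← hD v, ← hD' v, hDD v]
    ring
  obtain ⟨c, hc⟩ := hB.const _ hg0 hgord
  obtain ⟨d, hd⟩ := hB.root c
  have hf'eq : f' = algebraMap K F d ^ p * f * r ^ p := by
    rw [← map_pow, hd, hc]
    field_simp
  have hy0 : y ≠ 0 := root_ne_zero hf hy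
  have hy'0 : y' ≠ 0 := root_ne_zero hf' hy'
  have hd0 : Φ (algebraMap K F d) ≠ 0 := by
    intro h0
    have : algebraMap K F d = 0 := (map_eq_zero Φ).mp h0
    rw [this, zero_pow hp0, zero_mul, zero_mul] at hf'eq
    exact hf' hf'eq
  have hr0 : Φ r ≠ 0 := fun h0 => hr ((map_eq_zero Φ).mp h0)
  set z : M := Φ (algebraMap K F d) * y * Φ r with hz
  have hz0 : z ≠ 0 := mul_ne_zero (mul_ne_zero hd0 hy0) hr0
  have hzp : y' ^ p = z ^ p := by
    rw [hy', hf'eq, hz, mul_pow, mul_pow, hy, map_mul, map_mul, map_pow, map_pow]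
  have hω : (y' / z) ^ p = 1 := by
    rw [div_pow, hzp, div_self (pow_ne_zero p hz0)]
  obtain ⟨k, -, hk⟩ := hB.prim.eq_pow_of_pow_eq_one hω
  have hy'z : y' = ζ ^ k * z := by
    rw [hk]; field_simp
  have hζp : ζ ^ p = 1 := hB.prim.pow_eq_one
  have hζ0 : ζ ≠ 0 := hB.prim.ne_zero hp0
  refine AddMonoidHom.ext fun a => ?_
  obtain ⟨γ, rfl⟩ : ∃ γ : Γ, Additive.ofMul γ = a := ⟨a.toMul, rfl⟩
  have h1 : ρ γ y' = ζ ^ (u (Additive.ofMul γ)).val * y' := by
    rw [hy'z, hz, map_mul, map_pow, hB.rho_zeta, map_mul, map_mul, hB.rho_Phi, hB.rho_Phi, hρ γ]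
    ring
  have h2 := hρ' γ
  rw [h1] at h2
  have h3 : ζ ^ (u (Additive.ofMul γ)).val = ζ ^ (u' (Additive.ofMul γ)).val :=
    mul_right_cancel₀ hy'0 h2
  have h4 := hB.prim.pow_inj (ZMod.val_lt _) (ZMod.val_lt _) h3
  exact ZMod.val_injective p h4

/-- **the character determines the class** -/
theorem Kum.unique_class [NeZero p] (hB : Bridge K Φ ρ ζ p) {x x' : Pic0 K F}
    {u : Additive Γ →+ ZMod p} (h : Kum Φ ρ ζ p x u) (h' : Kum Φ ρ ζ p x' u) : x = x' := by
  obtain ⟨D, f, y, hx, hf, hD, hy, hρ⟩ := h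
  obtain ⟨D', f', y', hx', hf', hD', hy', hρ'⟩ := h'
  have hp0 : p ≠ 0 := NeZero.ne p
  have hy0 : y ≠ 0 := root_ne_zero hf hy
  have hy'0 : y' ≠ 0 := root_ne_zero hf' hy'
  have hζ0 : ζ ≠ 0 := hB.prim.ne_zero hp0
  have hinv : ∀ γ, ρ γ (y' / y) = y' / y := by
    intro γ
    rw [map_div₀, hρ γ, hρ' γ]
    have := pow_ne_zero (u (Additive.ofMul γ)).val hζ0
    field_simp
  obtain ⟨w, hw⟩ := hB.conv (y' / y) hinv ⟨f' / f, by rw [div_pow, hy, hy', map_div₀]⟩
  have hwp : w ^ p = f' / f := by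
    apply Φ.injective
    rw [map_pow, hw, div_pow, hy, hy', map_div₀]
  have hw0 : w ≠ 0 := by
    intro h0
    rw [h0, zero_pow hp0] at hwp
    exact div_ne_zero hf' hf hwp.symm
  rw [← hx, ← hx']
  refine mk_eq_of_forall w hw0 fun v => ?_
  have hf'eq : f' = f * w ^ p := by
    rw [hwp]; field_simp
  have h1 : v.ord f' = v.ord f + p * v.ord w := by
    rw [hf'eq, v.ord_mul hf (pow_ne_zero p hw0), ord_pow]
  rw [← hD v, ← hD' v] at h1
  have hpZ : (p : ℤ) ≠ 0 := by exact_mod_cast hp0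
  have h2 : (p : ℤ) * (D' : Divisor K F) v = p * ((D : Divisor K F) v + v.ord w) := by
    rw [h1]; ring
  exact mul_left_cancel₀ hpZ h2

theorem Kum.zero [NeZero p] : Kum Φ ρ ζ p (0 : Pic0 K F) 0 := by
  refine ⟨0, 1, 1, rfl, one_ne_zero, fun v => ?_, by rw [one_pow, map_one], fun γ => ?_⟩
  · rw [AddSubgroup.coe_zero, Finsupp.zero_apply, mul_zero, Place.ord_one]
  · rw [map_one, AddMonoidHom.zero_apply, ZMod.val_zero, pow_zero, one_mul]

theorem Kum.add [NeZero p] (hζ : ζ ^ p = 1) {x x' : Pic0 K F} {u u' : Additive Γ →+ ZMod p}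
    (h : Kum Φ ρ ζ p x u) (h' : Kum Φ ρ ζ p x' u') : Kum Φ ρ ζ p (x + x') (u + u') := by
  obtain ⟨D, f, y, hx, hf, hD, hy, hρ⟩ := h
  obtain ⟨D', f', y', hx', hf', hD', hy', hρ'⟩ := h'
  refine ⟨D + D', f * f', y * y', by rw [Pic0.mk_add, hx, hx'], mul_ne_zero hf hf', fun v => ?_,
    by rw [mul_pow, hy, hy', map_mul], fun γ => ?_⟩
  · rw [AddSubgroup.coe_add, Finsupp.add_apply, mul_add, hD v, hD' v, v.ord_mul hf hf']
  · rw [map_mul, hρ γ, hρ' γ, AddMonoidHom.add_apply, zeta_pow_val_add hζ]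
    ring

/-- a class in Kummer relation with a character is `p`-torsion -/
theorem Kum.torsion {x : Pic0 K F} {u : Additive Γ →+ ZMod p} (h : Kum Φ ρ ζ p x u) :
    x ∈ Pic0.torsion K F p := by
  obtain ⟨D, f, y, hx, hf, hD, hy, hρ⟩ := h
  rw [Pic0.mem_torsion, ← hx]
  have h0 : Pic0.mk ((p : ℤ) • D) = Pic0.mk (0 : Divisor.degZero (K := K) (F := F)) := by
    refine (mk_eq_of_forall f⁻¹ (inv_ne_zero hf) fun v => ?_)
    rw [AddSubgroup.coe_zero, Finsupp.zero_apply, AddSubgroup.coe_zsmul, Finsupp.smul_apply,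
      smul_eq_mul, hD v, v.ord_inv]
    ring
  exact h0

/-- **constructor**: a function `f` all of whose orders are divisible by `p`, together with a
`p`-th root `y` of `Φ f` with multiplier `u`, gives a class in Kummer relation with `u`. -/
theorem Kum.exists_of_dvd [HasPrincipalDivisors K F] [NeZero p] {f : F} (hf : f ≠ 0) {y : M}
    (hy : y ^ p = Φ f) (hdvd : ∀ v : Place K F, (p : ℤ) ∣ v.ord f) {u : Additive Γ →+ ZMod p}
    (hρ : ∀ γ : Γ, ρ γ y = ζ ^ (u (Additive.ofMul γ)).val * y) :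
    ∃ x : Pic0 K F, Kum Φ ρ ζ p x u := by
  obtain ⟨D0, hD0, hdeg⟩ := HasPrincipalDivisors.exists_divisor (K := K) f hf
  have hpZ : (p : ℤ) ≠ 0 := by exact_mod_cast NeZero.ne p
  let D : Divisor K F := D0.mapRange (fun n => n / (p : ℤ)) (by simp)
  have hDv : ∀ v : Place K F, (p : ℤ) * D v = v.ord f := by
    intro v
    show (p : ℤ) * (D0.mapRange (fun n => n / (p : ℤ)) (by simp)) v = _
    rw [Finsupp.mapRange_apply, hD0 v]
    exact Int.mul_ediv_cancel' (hdvd v)
  have hpD : (p : ℤ) • D = D0 := by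
    ext v
    rw [Finsupp.smul_apply, smul_eq_mul, hDv v, hD0 v]
  have hdegD : Divisor.degree D = 0 := by
    have h1 : (p : ℤ) * Divisor.degree D = 0 := by
      rw [← smul_eq_mul, ← map_zsmul, hpD, hdeg]
    exact (mul_eq_zero.mp h1).resolve_left hpZ
  exact ⟨Pic0.mk ⟨D, hdegD⟩, ⟨D, hdegD⟩, f, y, rfl, hf, hDv, hy, hρ⟩

end Basic

/-! ### Hecke correspondences -/

section Hecke

variable [HasPrincipalDivisors K F']
variable (α β : F →ₐ[K] F') (hα : α.toRingHom.IsIntegral) (hβ : β.toRingHom.IsIntegral)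

/-- `Norm_α (β f)` -/
def normAlong (f : F) : F :=
  letI := algebraAlong α
  Algebra.norm F (β f)

theorem normAlong_ne_zero (hfin : FiniteAlong K α) {f : F} (hf : f ≠ 0) :
    normAlong α β f ≠ 0 := by
  letI := algebraAlong α
  haveI : Module.Finite F F' := hfin
  show Algebra.norm F (β f) ≠ 0
  rw [Algebra.norm_ne_zero_iff]
  exact fun h => hf ((map_eq_zero β).mp h)

/-- `T (div f) = div (Norm_α (β f))` on the level of divisors -/
theorem correspondence_apply_of_ord (hfin : FiniteAlong K α) (hN : NormFormulaAlong K α hfin)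
    {E : Divisor K F} {f : F} (hf : f ≠ 0)
    (hE : ∀ v : Place K F, E v = v.ord f) (v : Place K F) :
    Divisor.correspondence β α hβ hα E v = v.ord (normAlong α β f) := by
  rw [Divisor.correspondence_apply]
  have h1 : ∀ w : Place K F', Divisor.pullbackAlong β hβ E w = w.ord (β f) := by
    intro w
    letI := algebraAlong β
    haveI := isScalarTower_along β
    haveI := isIntegral_along β hβ
    exact Divisor.pullback_apply_eq_ord hE w
  letI := algebraAlong α
  haveI := isScalarTower_along α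
  haveI := isIntegral_along α hα
  haveI : Module.Finite F F' := hfin
  exact hN (β f) (fun h => hf ((map_eq_zero β).mp h)) _ h1 v

variable {Φ : F →+* M} {ρ : Γ → M →+* M} {ζ : M} {p : ℕ}

/-- **Hecke compatibility of the Kummer relation** -/
theorem Kum.hecke (hFI : FundamentalIdentityAlong K β hβ)
    (hfin : FiniteAlong K α) (hN : NormFormulaAlong K α hfin) (Hp : M →* M) (hHpΦ : ∀ f : F, Φ (normAlong α β f) = Hp (Φ f))
    (Ttop : (Additive Γ →+ ZMod p) → (Additive Γ →+ ZMod p))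
    (hHp : ∀ (y : M) (u : Additive Γ →+ ZMod p), y ≠ 0 →
      (∀ γ : Γ, ρ γ y = ζ ^ (u (Additive.ofMul γ)).val * y) →
      ∀ γ : Γ, ρ γ (Hp y) = ζ ^ (Ttop u (Additive.ofMul γ)).val * Hp y)
    [NeZero p] {x : Pic0 K F} {u : Additive Γ →+ ZMod p} (h : Kum Φ ρ ζ p x u) :
    Kum Φ ρ ζ p (Pic0.correspondence β α hβ hα hFI hfin hN x) (Ttop u) := by
  obtain ⟨D, f, y, hx, hf, hD, hy, hρ⟩ := h
  have hy0 : y ≠ 0 := root_ne_zero hf hy
  refine ⟨Pic0.degZeroCorrespondence β α hβ hα hFI D, normAlong α β f, Hp y, ?_,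
    normAlong_ne_zero α β hfin hf, fun v => ?_, ?_, hHp y u hy0 hρ⟩
  · rw [← hx, Pic0.correspondence_mk]
  · rw [Pic0.coe_degZeroCorrespondence]
    have hE : ∀ v : Place K F, ((p : ℤ) • (D : Divisor K F)) v = v.ord f := by
      intro v
      rw [Finsupp.smul_apply, smul_eq_mul, hD v]
    have := correspondence_apply_of_ord α β hα hβ hfin hN hf hE v
    rw [map_zsmul, Finsupp.smul_apply, smul_eq_mul] at this
    exact this
  · rw [← map_pow, hy, hHpΦ]

end Hecke

/-! ### the section -/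

section Section

variable {Φ : F →+* M} {ρ : Γ → M →+* M} {ζ : M} {p : ℕ}

/-- **the Kummer section**: if every character in `X` is realised by a class, then there is an
injective additive map `e : X →+ Pic0.torsion K F p` with `Kum (e u) u`. -/
theorem exists_section [NeZero p] (hB : Bridge K Φ ρ ζ p)
    (X : AddSubgroup (Additive Γ →+ ZMod p))
    (hE : ∀ u ∈ X, ∃ x : Pic0 K F, Kum Φ ρ ζ p x u) :
    ∃ e : X →+ Pic0.torsion K F p, Function.Injective e ∧
      ∀ u : X, Kum Φ ρ ζ p ((e u : Pic0.torsion K F p) : Pic0 K F) (u : Additive Γ →+ ZMod p) := by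
  classical
  let e0 : X → Pic0 K F := fun u => Classical.choose (hE u.1 u.2)
  have he0 : ∀ u : X, Kum Φ ρ ζ p (e0 u) (u : Additive Γ →+ ZMod p) :=
    fun u => Classical.choose_spec (hE u.1 u.2)
  have hζ : ζ ^ p = 1 := hB.prim.pow_eq_one
  let e : X →+ Pic0.torsion K F p :=
    { toFun := fun u => ⟨e0 u, (he0 u).torsion⟩
      map_zero' := by
        apply Subtype.ext
        exact Kum.unique_class hB (he0 0) Kum.zero
      map_add' := fun u u' => by
        apply Subtype.ext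
        exact Kum.unique_class hB (he0 (u + u')) (Kum.add hζ (he0 u) (he0 u')) }
  refine ⟨e, fun u u' h => ?_, fun u => he0 u⟩
  have h1 : e0 u = e0 u' := congrArg Subtype.val h
  have h2 := he0 u
  rw [h1] at h2
  exact Subtype.ext (Kum.unique_char hB h2 (he0 u'))

variable [HasPrincipalDivisors K F']

/-- **the Kummer section is Hecke-equivariant** -/
theorem section_hecke [NeZero p] (hB : Bridge K Φ ρ ζ p)
    (X : AddSubgroup (Additive Γ →+ ZMod p)) (e : X → Pic0 K F)
    (he : ∀ u : X, Kum Φ ρ ζ p (e u) (u : Additive Γ →+ ZMod p))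
    (α β : F →ₐ[K] F') (hα : α.toRingHom.IsIntegral) (hβ : β.toRingHom.IsIntegral)
    (hFI : FundamentalIdentityAlong K β hβ)
    (hfin : FiniteAlong K α) (hN : NormFormulaAlong K α hfin)
    (Hp : M →* M) (hHpΦ : ∀ f : F, Φ (normAlong α β f) = Hp (Φ f))
    (Ttop : (Additive Γ →+ ZMod p) → (Additive Γ →+ ZMod p))
    (hHp : ∀ (y : M) (u : Additive Γ →+ ZMod p), y ≠ 0 →
      (∀ γ : Γ, ρ γ y = ζ ^ (u (Additive.ofMul γ)).val * y) →
      ∀ γ : Γ, ρ γ (Hp y) = ζ ^ (Ttop u (Additive.ofMul γ)).val * Hp y)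
    (u : X) (hu : Ttop u ∈ X) :
    Pic0.correspondence β α hβ hα hFI hfin hN (e u) = e ⟨Ttop u, hu⟩ :=
  Kum.unique_class hB (Kum.hecke α β hα hβ hFI hfin hN Hp hHpΦ Ttop hHp (he u)) (he ⟨Ttop u, hu⟩)

end Section

end

end Fermat.Agent.S29.Hk.Equivariant
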