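import Mathlib
import Fermat.Agent.S24.CuspMer

/-!
# S29 (R3, block Hk): the analytic side of the Hecke correspondence on `S24.Mer`

* `compHolGL g hg`, `compMerGL g hg` : composition with `z ↦ g • z`, `g ∈ GL₂(ℝ)⁺`, on `Hol`, `Mer`.
* `compMer_prod_compMerGL` : **the multiplier law**.  If `α x * γ = γ' x * α (σ x)` and
  `F ∘ γ' x = c x • F`, then `(∏ x, F ∘ α x) ∘ γ = (∏ x, c x) • ∏ x, F ∘ α x`.
-/

set_option autoImplicit false

noncomputable section

open UpperHalfPlane Matrix.SpecialLinearGroup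
open scoped MatrixGroups Manifold

namespace Fermat.Agent.S29.Hk.MerHecke

open Fermat.Agent.S24 Fermat.Agent.S24.PsiLe

/-! ### composition with `GL₂(ℝ)⁺` on `Hol` and `Mer` -/

/-- `f ↦ f ∘ g` on `Hol`, for `g ∈ GL₂(ℝ)` of positive determinant. -/
def compHolGL (g : GL (Fin 2) ℝ) (hg : 0 < g.det.val) : Hol →+* Hol where
  toFun f := ⟨fun z => (f : ℍ → ℂ) (g • z), f.2.comp (mdifferentiable_smul hg)⟩
  map_one' := rfl
  map_mul' _ _ := rfl
  map_zero' := rfl
  map_add' _ _ := rfl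

@[simp] theorem compHolGL_apply (g : GL (Fin 2) ℝ) (hg : 0 < g.det.val) (f : Hol) (z : ℍ) :
    ((compHolGL g hg f : Hol) : ℍ → ℂ) z = (f : ℍ → ℂ) (g • z) := rfl

theorem det_inv_pos {g : GL (Fin 2) ℝ} (hg : 0 < g.det.val) : 0 < (g⁻¹).det.val := by
  rw [map_inv, Units.val_inv_eq_inv_val]
  exact inv_pos.mpr hg

theorem det_mul_pos {g h : GL (Fin 2) ℝ} (hg : 0 < g.det.val) (hh : 0 < h.det.val) :
    0 < (g * h).det.val := by
  rw [map_mul, Units.val_mul]
  exact mul_pos hg hh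

theorem det_mapGL_pos (γ : SL(2, ℤ)) : 0 < (mapGL ℝ γ : GL (Fin 2) ℝ).det.val := by
  simp

theorem compHolGL_injective (g : GL (Fin 2) ℝ) (hg : 0 < g.det.val) :
    Function.Injective (compHolGL g hg) := by
  intro f f' h
  refine Hol.ext fun z => ?_
  have := congrFun (congrArg Subtype.val h) (g⁻¹ • z)
  simpa [← mul_smul] using this

/-- `m ↦ m ∘ g` on `Mer`. -/
def compMerGL (g : GL (Fin 2) ℝ) (hg : 0 < g.det.val) : Mer →+* Mer :=
  IsFractionRing.lift (g := (algebraMap Hol Mer).comp (compHolGL g hg))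
    (algebraMap_Hol_Mer_injective.comp (compHolGL_injective g hg))

theorem compMerGL_toMer (g : GL (Fin 2) ℝ) (hg : 0 < g.det.val) (f : Hol) :
    compMerGL g hg (toMer f) = toMer (compHolGL g hg f) :=
  IsFractionRing.lift_algebraMap _ f

theorem compMerGL_algebraMap (g : GL (Fin 2) ℝ) (hg : 0 < g.det.val) (c : ℂ) :
    compMerGL g hg (algebraMap ℂ Mer c) = algebraMap ℂ Mer c := by
  have h : algebraMap ℂ Mer c = toMer (algebraMap ℂ Hol c) :=
    IsScalarTower.algebraMap_apply ℂ Hol Mer c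
  rw [h, compMerGL_toMer]
  rfl

theorem compMerGL_injective (g : GL (Fin 2) ℝ) (hg : 0 < g.det.val) :
    Function.Injective (compMerGL g hg) := (compMerGL g hg).injective

theorem compHolGL_compHolGL (g h : GL (Fin 2) ℝ) (hg : 0 < g.det.val) (hh : 0 < h.det.val)
    (f : Hol) :
    compHolGL h hh (compHolGL g hg f) = compHolGL (g * h) (det_mul_pos hg hh) f := by
  refine Hol.ext fun z => ?_
  simp [mul_smul]

/-- two ring homomorphisms out of `Mer` which agree on `Hol` are equal. -/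
theorem ringHom_ext_Mer {R : Type*} [Semiring R] {φ ψ : Mer →+* R}
    (h : ∀ f : Hol, φ (toMer f) = ψ (toMer f)) : φ = ψ :=
  IsLocalization.ringHom_ext (nonZeroDivisors Hol) (RingHom.ext h)

/-- **composition law**: `(m ∘ g) ∘ h = m ∘ (g * h)`. -/
theorem compMerGL_compMerGL (g h : GL (Fin 2) ℝ) (hg : 0 < g.det.val) (hh : 0 < h.det.val)
    (m : Mer) :
    compMerGL h hh (compMerGL g hg m) = compMerGL (g * h) (det_mul_pos hg hh) m := by
  have : (compMerGL h hh).comp (compMerGL g hg) = compMerGL (g * h) (det_mul_pos hg hh) := by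
    apply ringHom_ext_Mer
    intro f
    rw [RingHom.comp_apply, compMerGL_toMer, compMerGL_toMer, compMerGL_toMer,
      compHolGL_compHolGL]
  exact RingHom.congr_fun this m

theorem compMerGL_congr {g h : GL (Fin 2) ℝ} (hgh : g = h) (hg : 0 < g.det.val) (m : Mer) :
    compMerGL g hg m = compMerGL h (hgh ▸ hg) m := by
  subst hgh
  rfl

theorem compHolGL_mapGL (γ : SL(2, ℤ)) (f : Hol) :
    compHolGL (mapGL ℝ γ) (det_mapGL_pos γ) f = compHol γ f := by
  refine Hol.ext fun z => ?_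
  rfl

/-- on `SL(2, ℤ)` the action is the `compMer` of `S24`. -/
theorem compMerGL_mapGL (γ : SL(2, ℤ)) (m : Mer) :
    compMerGL (mapGL ℝ γ) (det_mapGL_pos γ) m = compMer γ m := by
  have : compMerGL (mapGL ℝ γ) (det_mapGL_pos γ) = compMer γ := by
    apply ringHom_ext_Mer
    intro f
    rw [compMerGL_toMer, compHolGL_mapGL]
    exact (compMer_algebraMap γ f).symm
  exact RingHom.congr_fun this m

/-! ### functions meromorphic at the cusp: boundedness, change of period, upper triangular maps -/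

open Filter Topology Complex

local notation "𝕢" => Function.Periodic.qParam

theorem norm_qParam_le_one {h : ℝ} (hh : 0 < h) (τ : ℍ) : ‖𝕢 h (τ : ℂ)‖ ≤ 1 := by
  rw [Function.Periodic.norm_qParam]
  apply Real.exp_le_one_iff.mpr
  have : 0 ≤ 2 * Real.pi * τ.im / h := by
    have := τ.im_pos
    positivity
  have h2 : -2 * Real.pi * (τ : ℂ).im / h = -(2 * Real.pi * τ.im / h) := by
    rw [UpperHalfPlane.coe_im]; ring
  rw [h2]
  linarith

/-- a function meromorphic at the cusp becomes bounded after multiplication by a power of `q`. -/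
theorem exists_isBounded_mul_pow {h : ℝ} (hh : 0 < h) {g : ℍ → ℂ} (hg : IsMeroCusp h g) :
    ∃ m : ℕ, IsBoundedAtImInfty (fun τ : ℍ => g τ * 𝕢 h τ ^ m) := by
  by_cases hg0 : g = 0
  · refine ⟨0, ?_⟩
    subst hg0
    simp only [Pi.zero_apply, zero_mul]
    exact (tendsto_const_nhds (x := (0 : ℂ))).isBigO_one ℝ
  · set m : ℕ := (-ordCusp h g).toNat with hm
    refine ⟨m, ?_⟩
    have hq := isMeroCusp_qParam_pow hh m
    have hG : IsMeroCusp h (g * fun τ : ℍ => 𝕢 h τ ^ m) := hg.mul hh hq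
    have hG0 : g * (fun τ : ℍ => 𝕢 h τ ^ m) ≠ 0 :=
      mul_ne_zero_of_mdiff hg.mdiff hq.mdiff hg0 (qParam_pow_fun_ne_zero h m)
    have hord : 0 ≤ ordCusp h (g * fun τ : ℍ => 𝕢 h τ ^ m) := by
      rw [ordCusp_mul hh hg hq hg0 (qParam_pow_fun_ne_zero h m), ordCusp_qParam_pow hh m]
      have := Int.self_le_toNat (-ordCusp h g)
      omega
    obtain ⟨c, hc⟩ := hG.tendsto_of_ordCusp_nonneg hh hG0 hord
    exact hc.isBigO_one ℝ

theorem qParam_mul_period {h : ℝ} (k : ℕ) (hk : 0 < k) (hh : 0 < h) (z : ℂ) :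
    𝕢 h z = 𝕢 ((k : ℝ) * h) z ^ k := by
  unfold Function.Periodic.qParam
  rw [← Complex.exp_nat_mul]
  congr 1
  have hk' : (k : ℂ) ≠ 0 := by exact_mod_cast hk.ne'
  have hh' : (h : ℂ) ≠ 0 := by exact_mod_cast hh.ne'
  push_cast
  field_simp

/-- **descent of the period**: a function meromorphic at the cusp for the period `k h` which is
`h`-periodic is meromorphic at the cusp for the period `h`. -/
theorem isMeroCusp_of_periodic {h : ℝ} (hh : 0 < h) (k : ℕ) (hk : 0 < k) {g : ℍ → ℂ}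
    (hg : IsMeroCusp ((k : ℝ) * h) g) (hper : ∀ τ : ℍ, g (h +ᵥ τ) = g τ) : IsMeroCusp h g := by
  have hkh : 0 < (k : ℝ) * h := by positivity
  obtain ⟨m, hm⟩ := exists_isBounded_mul_pow hkh hg
  refine isMeroCusp_of_isBounded_mul_pow hh hg.mdiff hper m ?_
  rw [UpperHalfPlane.isBoundedAtImInfty_iff] at hm ⊢
  obtain ⟨M, A, hMA⟩ := hm
  refine ⟨M, A, fun τ hτ => ?_⟩
  have h1 := hMA τ hτ
  have h2 : g τ * 𝕢 h τ ^ m =
      (g τ * 𝕢 ((k : ℝ) * h) τ ^ m) * 𝕢 ((k : ℝ) * h) τ ^ ((k - 1) * m) := by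
    rw [qParam_mul_period k hk hh, ← pow_mul, mul_assoc, ← pow_add]
    congr 2
    obtain ⟨k', rfl⟩ : ∃ k', k = k' + 1 := ⟨k - 1, by omega⟩
    simp only [Nat.add_sub_cancel]
    ring
  rw [h2, norm_mul, norm_pow]
  calc ‖g τ * 𝕢 ((k : ℝ) * h) τ ^ m‖ * ‖𝕢 ((k : ℝ) * h) (τ : ℂ)‖ ^ ((k - 1) * m)
      ≤ M * 1 := by
        apply mul_le_mul h1 (pow_le_one₀ (norm_nonneg _) (norm_qParam_le_one hkh τ))
          (by positivity) ((norm_nonneg _).trans h1)
    _ = M := mul_one M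

theorem det_pos_of_upper (β : GL (Fin 2) ℝ) (hβ : β 1 0 = 0) (ha : 0 < β 0 0) (hd : 0 < β 1 1) :
    0 < β.det.val := by
  rw [Matrix.GeneralLinearGroup.val_det_apply, Matrix.det_fin_two, hβ, mul_zero, sub_zero]
  exact mul_pos ha hd

theorem coe_upper_smul (β : GL (Fin 2) ℝ) (hβ : β 1 0 = 0) (ha : 0 < β 0 0) (hd : 0 < β 1 1)
    (τ : ℍ) : ((β • τ : ℍ) : ℂ) = ((β 0 0 : ℝ) * (τ : ℂ) + (β 0 1 : ℝ)) / (β 1 1 : ℝ) := by
  rw [UpperHalfPlane.coe_smul_of_det_pos (det_pos_of_upper β hβ ha hd)]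
  simp [UpperHalfPlane.num, UpperHalfPlane.denom, hβ]

theorem periodic_nat_mul {h : ℝ} {g : ℍ → ℂ} (hper : ∀ τ : ℍ, g (h +ᵥ τ) = g τ) (a : ℕ) (τ : ℍ) :
    g (((a : ℝ) * h) +ᵥ τ) = g τ := by
  induction a with
  | zero => simp
  | succ a ih =>
    have : (((a + 1 : ℕ) : ℝ) * h) +ᵥ τ = h +ᵥ (((a : ℝ) * h) +ᵥ τ) := by
      apply UpperHalfPlane.ext
      simp only [UpperHalfPlane.coe_vadd]
      push_cast
      ring
    rw [this, hper, ih]

/-- a function meromorphic at the cusp for the period `h` is so for the period `k h`. -/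
theorem isMeroCusp_mul_period {h : ℝ} (hh : 0 < h) (k : ℕ) (hk : 0 < k) {g : ℍ → ℂ}
    (hg : IsMeroCusp h g) : IsMeroCusp ((k : ℝ) * h) g := by
  have hkh : 0 < (k : ℝ) * h := by positivity
  obtain ⟨m, hm⟩ := exists_isBounded_mul_pow hh hg
  refine isMeroCusp_of_isBounded_mul_pow hkh hg.mdiff (periodic_nat_mul hg.periodic k) (k * m) ?_
  have : (fun τ : ℍ => g τ * 𝕢 ((k : ℝ) * h) τ ^ (k * m)) = fun τ : ℍ => g τ * 𝕢 h τ ^ m := by
    funext τ
    rw [qParam_mul_period k hk hh, ← pow_mul]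
  rw [this]
  exact hm

/-- **composition with an upper triangular integral matrix** `(a b; 0 d)`: the period `h`
becomes `h d`. -/
theorem isMeroCusp_comp_upper {h : ℝ} (hh : 0 < h) {g : ℍ → ℂ} (hg : IsMeroCusp h g)
    (β : GL (Fin 2) ℝ) (a d : ℕ) (ha : 0 < a) (hd : 0 < d) (hβ : β 1 0 = 0)
    (hβa : β 0 0 = a) (hβd : β 1 1 = d) :
    IsMeroCusp (h * d) (fun τ : ℍ => g (β • τ)) := by
  have ha' : 0 < β 0 0 := by rw [hβa]; exact_mod_cast ha
  have hd' : 0 < β 1 1 := by rw [hβd]; exact_mod_cast hd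
  have hhd : 0 < h * d := by positivity
  have hdet := det_pos_of_upper β hβ ha' hd'
  have hmd : MDiff (fun τ : ℍ => g (β • τ)) := hg.mdiff.comp (mdifferentiable_smul hdet)
  have hper : ∀ τ : ℍ, (fun τ : ℍ => g (β • τ)) ((h * d) +ᵥ τ) = (fun τ : ℍ => g (β • τ)) τ := by
    intro τ
    show g (β • ((h * d) +ᵥ τ)) = g (β • τ)
    have : β • ((h * d) +ᵥ τ) = ((a : ℝ) * h) +ᵥ (β • τ) := by
      apply UpperHalfPlane.ext
      rw [coe_upper_smul β hβ ha' hd', UpperHalfPlane.coe_vadd, UpperHalfPlane.coe_vadd,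
        coe_upper_smul β hβ ha' hd', hβa, hβd]
      have hd'' : (d : ℂ) ≠ 0 := Nat.cast_ne_zero.mpr hd.ne'
      push_cast
      field_simp
      ring
    rw [this, periodic_nat_mul hg.periodic]
  obtain ⟨m, hm⟩ := exists_isBounded_mul_pow hh hg
  refine isMeroCusp_of_isBounded_mul_pow hhd hmd hper (a * m) ?_
  -- `q_h (β τ) = ζ * q_{hd}(τ)^a`
  set ζ : ℂ := 𝕢 (h * d) ((β 0 1 : ℝ) : ℂ) with hζ
  have hζ0 : ζ ≠ 0 := Function.Periodic.qParam_ne_zero _
  have hq : ∀ τ : ℍ, 𝕢 h ((β • τ : ℍ) : ℂ) = ζ * 𝕢 (h * d) (τ : ℂ) ^ a := by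
    intro τ
    rw [coe_upper_smul β hβ ha' hd', hβa, hβd, hζ]
    unfold Function.Periodic.qParam
    rw [← Complex.exp_nat_mul, ← Complex.exp_add]
    congr 1
    have hd'' : ((d : ℝ) : ℂ) ≠ 0 := by exact_mod_cast hd.ne'
    have hh' : (h : ℂ) ≠ 0 := by exact_mod_cast hh.ne'
    push_cast
    field_simp
    ring
  have hcomp : IsBoundedAtImInfty (fun τ : ℍ => (fun τ : ℍ => g τ * 𝕢 h τ ^ m) (β • τ)) :=
    hm.comp_tendsto (tendsto_smul_atImInfty hβ)
  have heq : (fun τ : ℍ => g (β • τ) * 𝕢 (h * d) τ ^ (a * m)) =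
      fun τ : ℍ => (ζ ^ m)⁻¹ * (fun τ : ℍ => g τ * 𝕢 h τ ^ m) (β • τ) := by
    funext τ
    simp only
    rw [hq τ, mul_pow, ← pow_mul]
    have : ζ ^ m ≠ 0 := pow_ne_zero m hζ0
    field_simp
  rw [heq]
  exact hcomp.const_mul_left _

/-! ### `MerInf`: upper triangular maps and descent of the period -/

theorem T_pow_smul (w : ℕ) (τ : ℍ) : ModularGroup.T ^ w • τ = ((w : ℕ) : ℝ) +ᵥ τ := by
  rw [← zpow_natCast, UpperHalfPlane.modular_T_zpow_smul, Int.cast_natCast]

/-- composition with an upper triangular integral matrix `(a b; 0 d)` maps `HolInf N` to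
`HolInf (N d)`. -/
theorem compHolGL_mem_HolInf_of_upper (N : ℕ) [NeZero N] (β : GL (Fin 2) ℝ) (a d : ℕ) [NeZero d]
    (ha : 0 < a) (hβ : β 1 0 = 0) (hβa : β 0 0 = a) (hβd : β 1 1 = d) (hdet : 0 < β.det.val)
    {f : Hol} (hf : f ∈ HolInf N) : compHolGL β hdet f ∈ HolInf (N * d) := by
  have hd : 0 < d := Nat.pos_of_ne_zero (NeZero.ne d)
  show IsMeroCusp ((N * d : ℕ) : ℝ) ((compHolGL β hdet f : Hol) : ℍ → ℂ)
  have h := isMeroCusp_comp_upper (cuspMer_pos N) hf β a d ha hd hβ hβa hβd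
  rw [Nat.cast_mul]
  exact h

/-- composition with an upper triangular integral matrix `(a b; 0 d)` maps `MerInf N` to
`MerInf (N d)`. -/
theorem compMerGL_mem_MerInf_of_upper (N : ℕ) [NeZero N] (β : GL (Fin 2) ℝ) (a d : ℕ) [NeZero d]
    (ha : 0 < a) (hβ : β 1 0 = 0) (hβa : β 0 0 = a) (hβd : β 1 1 = d) (hdet : 0 < β.det.val)
    {x : Mer} (hx : x ∈ MerInf N) : compMerGL β hdet x ∈ MerInf (N * d) := by
  obtain ⟨f, g, hf, hg, hg0, rfl⟩ := hx
  rw [map_div₀, compMerGL_toMer, compMerGL_toMer]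
  exact div_mem_MerInf (N * d) (compHolGL_mem_HolInf_of_upper N β a d ha hβ hβa hβd hdet hf)
    (compHolGL_mem_HolInf_of_upper N β a d ha hβ hβa hβd hdet hg)

theorem HolInf_mono {N M : ℕ} [NeZero N] [NeZero M] (h : N ∣ M) : HolInf N ≤ HolInf M := by
  obtain ⟨k, rfl⟩ := h
  have hk : 0 < k := by
    rcases Nat.eq_zero_or_pos k with rfl | hk
    · exact absurd (mul_zero N) (NeZero.ne (N * 0))
    · exact hk
  intro f hf
  show IsMeroCusp ((N * k : ℕ) : ℝ) (f : ℍ → ℂ)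
  have := isMeroCusp_mul_period (cuspMer_pos N) k hk hf
  rwa [Nat.cast_mul, mul_comm]

theorem MerInf_mono {N M : ℕ} [NeZero N] [NeZero M] (h : N ∣ M) : MerInf N ≤ MerInf M := by
  rintro x ⟨a, b, ha, hb, hb0, rfl⟩
  exact div_mem_MerInf M (HolInf_mono h ha) (HolInf_mono h hb)

/-- an element of `HolInf (w k)` which is invariant under `T ^ w` lies in `HolInf w`. -/
theorem mem_HolInf_of_compHol_T_pow {w k : ℕ} [NeZero w] [NeZero k] {f : Hol}
    (hf : f ∈ HolInf (w * k)) (hfix : compHol (ModularGroup.T ^ w) f = f) : f ∈ HolInf w := by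
  have hk : 0 < k := Nat.pos_of_ne_zero (NeZero.ne k)
  show IsMeroCusp ((w : ℕ) : ℝ) (f : ℍ → ℂ)
  have hf' : IsMeroCusp ((k : ℝ) * (w : ℝ)) (f : ℍ → ℂ) := by
    have : IsMeroCusp ((w * k : ℕ) : ℝ) (f : ℍ → ℂ) := hf
    rwa [Nat.cast_mul, mul_comm] at this
  refine isMeroCusp_of_periodic (cuspMer_pos w) k hk hf' fun τ => ?_
  have := congrFun (congrArg Subtype.val hfix) τ
  rw [compHol_apply, T_pow_smul] at this
  exact this

theorem compHol_compHol (γ γ' : SL(2, ℤ)) (f : Hol) :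
    compHol γ' (compHol γ f) = compHol (γ * γ') f := by
  refine Hol.ext fun z => ?_
  simp [mul_smul]

theorem compHol_one (f : Hol) : compHol 1 f = f := by
  refine Hol.ext fun z => ?_
  simp

/-- **descent of the level at the cusp**: an element of `MerInf M` which is invariant under
`T ^ w`, `w ∣ M`, lies in `MerInf w`. -/
theorem mem_MerInf_of_compMer_T_pow {M w : ℕ} [NeZero M] [NeZero w] (hwM : w ∣ M) {x : Mer}
    (hx : x ∈ MerInf M) (hfix : compMer (ModularGroup.T ^ w) x = x) : x ∈ MerInf w := by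
  obtain ⟨k, rfl⟩ := hwM
  have hk0 : k ≠ 0 := by
    rintro rfl
    exact NeZero.ne (w * 0) (mul_zero w)
  have : NeZero k := ⟨hk0⟩
  have hk : 0 < k := Nat.pos_of_ne_zero hk0
  obtain ⟨a, b, ha, hb, hb0, rfl⟩ := hx
  -- the translates of the denominator
  set t : ℕ → Hol := fun i => compHol (ModularGroup.T ^ (w * i)) b with ht
  have ht_mem : ∀ i, t i ∈ HolInf (w * k) := by
    intro i
    have := compHol_T_zpow_mem_HolInf (w * k) ((w * i : ℕ) : ℤ) hb
    rwa [zpow_natCast] at this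
  have ht0 : t 0 = b := by
    simp only [ht, mul_zero, pow_zero]
    exact compHol_one b
  have htk : t k = b := by
    refine Hol.ext fun τ => ?_
    simp only [ht, compHol_apply, T_pow_smul]
    exact hb.periodic τ
  have hshift : ∀ i, compHol (ModularGroup.T ^ w) (t i) = t (i + 1) := by
    intro i
    simp only [ht]
    rw [compHol_compHol, ← pow_add]
    congr 2
  set B : Hol := ∏ i ∈ Finset.range k, t i with hB
  have hB_inv : compHol (ModularGroup.T ^ w) B = B := by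
    rw [hB, map_prod]
    simp_rw [hshift]
    have h1 := Finset.prod_range_succ' t k
    have h2 := Finset.prod_range_succ t k
    rw [ht0] at h1
    rw [htk] at h2
    exact mul_right_cancel₀ hb0 (h1.symm.trans h2)
  obtain ⟨k', rfl⟩ : ∃ k', k = k' + 1 := ⟨k - 1, by omega⟩
  set P : Hol := ∏ i ∈ Finset.range k', t (i + 1) with hP
  have hB_eq : B = P * b := by
    rw [hB, Finset.prod_range_succ', ht0]
  have hP_mem : P ∈ HolInf (w * (k' + 1)) := Subalgebra.prod_mem _ fun i _ => ht_mem (i + 1)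
  have hB_mem : B ∈ HolInf (w * (k' + 1)) := Subalgebra.prod_mem _ fun i _ => ht_mem i
  have ht_ne : ∀ i, t i ≠ 0 := by
    intro i h0
    apply hb0
    apply compHol_injective (ModularGroup.T ^ (w * i))
    rw [map_zero]
    exact h0
  have hB0 : B ≠ 0 := Finset.prod_ne_zero_iff.mpr fun i _ => ht_ne i
  have hbm := toMer_ne_zero hb0
  have hBm := toMer_ne_zero hB0
  have hx_eq : toMer a / toMer b = toMer (a * P) / toMer B := by
    rw [hB_eq, map_mul, map_mul]
    have hP0 : toMer P ≠ 0 := by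
      intro h0
      apply hBm
      rw [hB_eq, map_mul, h0, zero_mul]
    field_simp
  have haP_inv : compHol (ModularGroup.T ^ w) (a * P) = a * P := by
    apply toMer_injective
    have h1 : toMer (a * P) = (toMer a / toMer b) * toMer B := by
      rw [hx_eq]
      field_simp
    rw [← compMer_toMer, h1, map_mul, hfix, compMer_toMer, hB_inv]
  rw [hx_eq]
  exact div_mem_MerInf w (mem_HolInf_of_compHol_T_pow (mul_mem ha hP_mem) haP_inv)
    (mem_HolInf_of_compHol_T_pow hB_mem hB_inv)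

/-! ### the multiplier law -/

/-- **The multiplier law.**  `ι` indexes Hecke representatives `α x ∈ GL₂(ℝ)⁺`; if
`α x * γ = γ' x * α (σ x)` for a permutation `σ`, and `F ∘ γ' x = c x • F`, then the product
`∏ x, F ∘ α x` is multiplied by `∏ x, c x` under `γ`. -/
theorem compMer_prod_compMerGL {ι : Type*} [Fintype ι] (α : ι → GL (Fin 2) ℝ)
    (hα : ∀ x, 0 < (α x).det.val) (σ : Equiv.Perm ι) (γ : SL(2, ℤ)) (γ' : ι → SL(2, ℤ))
    (hrel : ∀ x, α x * mapGL ℝ γ = mapGL ℝ (γ' x) * α (σ x))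
    (F : Mer) (c : ι → ℂ) (hF : ∀ x, compMer (γ' x) F = algebraMap ℂ Mer (c x) * F) :
    compMer γ (∏ x, compMerGL (α x) (hα x) F) =
      algebraMap ℂ Mer (∏ x, c x) * ∏ x, compMerGL (α x) (hα x) F := by
  have hterm : ∀ x, compMer γ (compMerGL (α x) (hα x) F) =
      algebraMap ℂ Mer (c x) * compMerGL (α (σ x)) (hα (σ x)) F := by
    intro x
    rw [← compMerGL_mapGL, compMerGL_compMerGL, compMerGL_congr (hrel x),
      ← compMerGL_compMerGL (mapGL ℝ (γ' x)) (α (σ x)) (det_mapGL_pos _) (hα _),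
      compMerGL_mapGL, hF x, map_mul, compMerGL_algebraMap]
  rw [map_prod, map_prod]
  simp_rw [hterm]
  rw [Finset.prod_mul_distrib, Equiv.prod_comp σ (fun x => compMerGL (α x) (hα x) F)]

end Fermat.Agent.S29.Hk.MerHecke
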