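import Mathlib
import Fermat.Agent.S29.Hk.MerHecke
import Fermat.Agent.S29.Betti.HeckeHom

/-!
# S29 (R3, block Hk): the Hecke product `F ↦ ∏_x F ∘ heckeRep ℓ x` on `S24.Mer`

* `heckeProd ℓ : Mer →* Mer`;
* `compMer_heckeProd` : the multiplier law, in the `stepG` spelling of `Betti/HeckeHom.lean`:
  if `F ∘ δ = χ δ • F` for `δ ∈ Γ₀(N)` then `(heckeProd ℓ F) ∘ γ = (∏ x, χ (stepG γ x)) • heckeProd ℓ F`;
* `compMer_heckeProd_stdAddChar` : for `χ = stdAddChar ∘ ψ`, the multiplier of `heckeProd ℓ F` is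
  `stdAddChar ∘ heckeHom ψ`;
* `compMer_heckeProd_mem_MerInf` : the cusp condition at level `N ℓ`.
-/

set_option autoImplicit false

noncomputable section

open UpperHalfPlane Matrix.SpecialLinearGroup CongruenceSubgroup
open P2MW.S_ModularForm_heckeT_slash_eq_self_of_mem_Gamma0.ModularForm.HeckeSlashInvariance
open scoped MatrixGroups Manifold

namespace Fermat.Agent.S29.Hk.HeckeProd

open Fermat.Agent.S24 Fermat.Agent.S24.PsiLe Fermat.Agent.S29.Hk.MerHecke Fermat.Agent.S29.Betti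
open ModularForm

variable {ℓ : ℕ} [Fact ℓ.Prime]

theorem prime_ne_zero : ℓ ≠ 0 := (Fact.out : ℓ.Prime).ne_zero

theorem heckeRep_one_zero (x : OnePoint (ZMod ℓ)) : (heckeRep ℓ x) 1 0 = 0 := by
  induction x using OnePoint.rec with
  | infty => simp [heckeRep_infty, val_heckeDiagMatrix (prime_ne_zero (ℓ := ℓ))]
  | coe j => simp [heckeRep_coe, val_heckeMatrix (prime_ne_zero (ℓ := ℓ))]

omit [Fact ℓ.Prime] in
theorem det_heckeRep_pos (x : OnePoint (ZMod ℓ)) : 0 < (heckeRep ℓ x).det.val := by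
  induction x using OnePoint.rec with
  | infty => exact det_heckeDiagMatrix_pos ℓ
  | coe j => exact det_heckeMatrix_pos ℓ j.val

/-- **the Hecke product** `F ↦ ∏_x F ∘ heckeRep ℓ x`. -/
def heckeProd (ℓ : ℕ) [Fact ℓ.Prime] : Mer →* Mer where
  toFun F := ∏ x : OnePoint (ZMod ℓ), compMerGL (heckeRep ℓ x) (det_heckeRep_pos x) F
  map_one' := by simp
  map_mul' F G := by simp [Finset.prod_mul_distrib]

theorem heckeProd_apply (F : Mer) :
    heckeProd ℓ F = ∏ x : OnePoint (ZMod ℓ), compMerGL (heckeRep ℓ x) (det_heckeRep_pos x) F := rfl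

theorem heckeProd_ne_zero {F : Mer} (hF : F ≠ 0) : heckeProd ℓ F ≠ 0 := by
  rw [heckeProd_apply]
  exact Finset.prod_ne_zero_iff.mpr fun x _ =>
    (map_ne_zero_iff _ (compMerGL_injective _ _)).mpr hF

theorem heckeProd_zero : heckeProd ℓ (0 : Mer) = 0 := by
  rw [heckeProd_apply]
  exact Finset.prod_eq_zero (Finset.mem_univ (OnePoint.infty : OnePoint (ZMod ℓ))) (map_zero _)

theorem heckeProd_inv (F : Mer) : heckeProd ℓ F⁻¹ = (heckeProd ℓ F)⁻¹ := by
  rw [heckeProd_apply, heckeProd_apply, ← Finset.prod_inv_distrib]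
  exact Finset.prod_congr rfl fun x _ => map_inv₀ _ F

theorem heckeProd_div (F G : Mer) : heckeProd ℓ (F / G) = heckeProd ℓ F / heckeProd ℓ G := by
  rw [div_eq_mul_inv, map_mul, heckeProd_inv, div_eq_mul_inv]

theorem card_onePoint : Fintype.card (OnePoint (ZMod ℓ)) = ℓ + 1 := by
  have : NeZero ℓ := ⟨prime_ne_zero⟩
  show Fintype.card (Option (ZMod ℓ)) = ℓ + 1
  rw [Fintype.card_option, ZMod.card]

theorem heckeProd_algebraMap (c : ℂ) :
    heckeProd ℓ (algebraMap ℂ Mer c) = algebraMap ℂ Mer (c ^ (ℓ + 1)) := by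
  rw [heckeProd_apply]
  simp_rw [compMerGL_algebraMap]
  rw [Finset.prod_const, Finset.card_univ, card_onePoint, map_pow]

/-! ### the multiplier law -/

variable {N : ℕ}

/-- **the multiplier law**, for arbitrary relation data. -/
theorem compMer_heckeProd_of_rel (γ : Gamma0 N) (γ' : OnePoint (ZMod ℓ) → Gamma0 N)
    (hrel : ∀ x, heckeRep ℓ x * mapGL ℝ (γ : SL(2, ℤ)) =
      mapGL ℝ ((γ' x : Gamma0 N) : SL(2, ℤ)) * heckeRep ℓ (redMatrix ℓ (γ : SL(2, ℤ)) • x))
    (F : Mer) (χ : Gamma0 N → ℂ)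
    (hF : ∀ δ : Gamma0 N, compMer (δ : SL(2, ℤ)) F = algebraMap ℂ Mer (χ δ) * F) :
    compMer (γ : SL(2, ℤ)) (heckeProd ℓ F) =
      algebraMap ℂ Mer (∏ x, χ (γ' x)) * heckeProd ℓ F := by
  rw [heckeProd_apply]
  exact compMer_prod_compMerGL (heckeRep ℓ) det_heckeRep_pos
    (MulAction.toPerm (redMatrix ℓ (γ : SL(2, ℤ)))) (γ : SL(2, ℤ))
    (fun x => ((γ' x : Gamma0 N) : SL(2, ℤ))) hrel F (fun x => χ (γ' x)) (fun x => hF (γ' x))

/-- **the multiplier law**, in the `stepG` spelling. -/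
theorem compMer_heckeProd (hℓN : ¬ ℓ ∣ N) (γ : Gamma0 N) (F : Mer) (χ : Gamma0 N → ℂ)
    (hF : ∀ δ : Gamma0 N, compMer (δ : SL(2, ℤ)) F = algebraMap ℂ Mer (χ δ) * F) :
    compMer (γ : SL(2, ℤ)) (heckeProd ℓ F) =
      algebraMap ℂ Mer (∏ x, χ (stepG hℓN γ x)) * heckeProd ℓ F :=
  compMer_heckeProd_of_rel γ (stepG hℓN γ) (fun x => stepSL_rel hℓN γ x) F χ hF

/-- the Hecke product of a `Γ₀(N)`-invariant function is `Γ₀(N)`-invariant. -/
theorem compMer_heckeProd_of_invariant (hℓN : ¬ ℓ ∣ N) (F : Mer)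
    (hF : ∀ δ : Gamma0 N, compMer (δ : SL(2, ℤ)) F = F) (γ : Gamma0 N) :
    compMer (γ : SL(2, ℤ)) (heckeProd ℓ F) = heckeProd ℓ F := by
  have h := compMer_heckeProd hℓN γ F (fun _ => 1) (fun δ => by rw [hF δ, map_one, one_mul])
  rw [h, Finset.prod_const_one, map_one, one_mul]

theorem addChar_sum {A M ι : Type*} [AddCommMonoid A] [CommMonoid M] (χ : AddChar A M)
    (s : Finset ι) (f : ι → A) : χ (∑ i ∈ s, f i) = ∏ i ∈ s, χ (f i) := by
  classical
  induction s using Finset.induction_on with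
  | empty => simp
  | insert a s ha ih =>
    rw [Finset.sum_insert ha, Finset.prod_insert ha, AddChar.map_add_eq_mul, ih]

/-- **the multiplier law for `ZMod p`-valued characters**: if `F` has the multiplier
`stdAddChar ∘ ψ` then `heckeProd ℓ F` has the multiplier `stdAddChar ∘ heckeHom ψ`. -/
theorem compMer_heckeProd_stdAddChar (hℓN : ¬ ℓ ∣ N) {p : ℕ} [NeZero p]
    (ψ : Additive (Gamma0 N) →+ ZMod p) (F : Mer)
    (hF : ∀ δ : Gamma0 N, compMer (δ : SL(2, ℤ)) F =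
      algebraMap ℂ Mer (ZMod.stdAddChar (ψ (Additive.ofMul δ))) * F) (γ : Gamma0 N) :
    compMer (γ : SL(2, ℤ)) (heckeProd ℓ F) =
      algebraMap ℂ Mer (ZMod.stdAddChar (heckeHom hℓN (ZMod p) ψ (Additive.ofMul γ))) *
        heckeProd ℓ F := by
  rw [compMer_heckeProd hℓN γ F (fun δ => ZMod.stdAddChar (ψ (Additive.ofMul δ))) hF,
    heckeHom_apply, addChar_sum]

/-! ### the cusp condition -/

local instance instNeZeroPrime : NeZero ℓ := ⟨prime_ne_zero⟩

/-- composition with a Hecke representative maps `MerInf N` into `MerInf (N ℓ)`. -/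
theorem compMerGL_heckeRep_mem_MerInf [NeZero N] (y : OnePoint (ZMod ℓ)) {H : Mer}
    (hH : H ∈ MerInf N) : compMerGL (heckeRep ℓ y) (det_heckeRep_pos y) H ∈ MerInf (N * ℓ) := by
  have hℓ : ℓ ≠ 0 := prime_ne_zero
  induction y using OnePoint.rec with
  | infty =>
    have h1 : compMerGL (heckeRep ℓ OnePoint.infty) (det_heckeRep_pos _) H ∈ MerInf (N * 1) := by
      refine compMerGL_mem_MerInf_of_upper N _ ℓ 1 (Nat.pos_of_ne_zero hℓ) ?_ ?_ ?_ _ hH
      · simp [heckeRep_infty, val_heckeDiagMatrix hℓ]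
      · simp [heckeRep_infty, val_heckeDiagMatrix hℓ]
      · simp [heckeRep_infty, val_heckeDiagMatrix hℓ]
    exact MerInf_mono (Nat.mul_dvd_mul_left N (one_dvd ℓ)) h1
  | coe j =>
    refine compMerGL_mem_MerInf_of_upper N _ 1 ℓ one_pos ?_ ?_ ?_ _ hH
    · simp [heckeRep_coe, val_heckeMatrix hℓ]
    · simp [heckeRep_coe, val_heckeMatrix hℓ]
    · simp [heckeRep_coe, val_heckeMatrix hℓ]

/-- **the cusp condition for the Hecke product**: if every `SL(2, ℤ)`-translate of `F` is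
meromorphic at `i∞` in `q_N` then every translate of `heckeProd ℓ F` is so in `q_{N ℓ}`. -/
theorem compMer_heckeProd_mem_MerInf [NeZero N] (F : Mer)
    (hF : ∀ g : SL(2, ℤ), compMer g F ∈ MerInf N) (g : SL(2, ℤ)) :
    compMer g (heckeProd ℓ F) ∈ MerInf (N * ℓ) := by
  rw [heckeProd_apply, map_prod]
  refine Subfield.prod_mem _ fun x _ => ?_
  have hℓ1 : ¬ ℓ ∣ 1 := fun h => (Fact.out : ℓ.Prime).one_lt.ne' (Nat.dvd_one.mp h)
  obtain ⟨g', -, hrel⟩ := heckeRep_mul (N := 1) hℓ1 g (by simp) x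
  rw [← compMerGL_mapGL, compMerGL_compMerGL, compMerGL_congr hrel,
    ← compMerGL_compMerGL (mapGL ℝ g') (heckeRep ℓ (redMatrix ℓ g • x)) (det_mapGL_pos _)
      (det_heckeRep_pos _), compMerGL_mapGL]
  exact compMerGL_heckeRep_mem_MerInf _ (hF g')

/-- if moreover the translate is invariant under `T ^ N` it is meromorphic at `i∞` in `q_N`. -/
theorem compMer_heckeProd_mem_MerInf_of_fix [NeZero N] (F : Mer)
    (hF : ∀ g : SL(2, ℤ), compMer g F ∈ MerInf N) (g : SL(2, ℤ))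
    (hfix : compMer (ModularGroup.T ^ N) (compMer g (heckeProd ℓ F)) = compMer g (heckeProd ℓ F)) :
    compMer g (heckeProd ℓ F) ∈ MerInf N :=
  mem_MerInf_of_compMer_T_pow (dvd_mul_right N ℓ) (compMer_heckeProd_mem_MerInf F hF g) hfix

end Fermat.Agent.S29.Hk.HeckeProd
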