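import Mathlib
import Fermat.Agent.S29.Kummer.ClassMapC
import Fermat.Agent.S29.Hk.HeckeProd
import Fermat.Agent.S29.Hk.Equivariant
import Fermat.Agent.S29.HeckeInputsL
import Fermat.Agent.S29.NonVanish.Skeleton

/-!
# S29 (R3, block Hk, final contract): the Kummer class map over `ℂ` is Hecke-equivariant

`cls : P → Pic⁰(F_ℂ)` is any map which is *computed by every witness* (the SPEC clause of
`Kummer/ClassMapC.exists_cls`).  Under the norm formula

  `(A) : Φ (Norm_α (β f)) = heckeProd ℓ (Φ f)`          (`Hk/NormPhiC`, block (Hk-N))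

we show `cls (heckeHom ℓ u) = heckeOperatorAlong ℂ N ℓ (cls u)`:  a witness `(y, f, D)` of `u`
gives the witness `(heckeProd ℓ y, Norm_α (β f), heckeDivBar D)` of `heckeHom ℓ u`
(`Hk/HeckeProd.compMer_heckeProd_stdAddChar` for the multiplier, the Prelude norm formula
`HeckeInputsL.normFormulaAlong_alpha` for the divisor).

* `exists_wit`      : every admissible character has a witness (from `Blocks`);
* `wit_hecke`       : the Hecke transform of a witness;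
* `cls_heckeHom`    : the equivariance;
* `blockKC_of`      : the block statement `Skeleton.BlockKC` for `TopData` whose `T ℓ` is `heckeHom`.
-/

set_option autoImplicit false
set_option linter.unusedSectionVars false
set_option linter.style.haveILetI false

noncomputable section

namespace Fermat.Agent.S29.Hk.Equivariance

open AlgebraicCurve ModularCurve CongruenceSubgroup
open Fermat.Agent.S24 Fermat.Agent.S24.PsiLe
open Fermat.Agent.S29.Eis Fermat.Agent.S29.Kummer.Forward Fermat.Agent.S29.Kummer.ClassMapC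
open Fermat.Agent.S29.Hk.HeckeProd Fermat.Agent.S29.Hk.Equivariant Fermat.Agent.S29.Betti
open Fermat.Agent.S29.HeckeInputsL
open scoped MatrixGroups

variable {N p : ℕ} [NeZero N] [hp : Fact p.Prime]

local instance instPrin (M : ℕ) [NeZero M] : HasPrincipalDivisors ℂ (FC M) :=
  hasPrincipalDivisors_L ℂ M

/-- the witness predicate of `Kummer/ClassMapC` for the bridge `Φ`. -/
abbrev WitC (Φ : FC N →+* Mer) (u : Additive (Gamma0 N) →+ ZMod p) (y : Mer) (f : FC N)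
    (D : Divisor ℂ (FC N)) : Prop :=
  Wit Φ (algebraMap ℂ Mer) (fun γ : Gamma0 N => compMer (γ : SL(2, ℤ))) p
    (fun γ => charOf u γ) y f D

/-- every admissible character has a witness. -/
theorem exists_wit {Φ : FC N →+* Mer} (hB : Blocks N p Φ) (u : Additive (Gamma0 N) →+ ZMod p)
    (hu : IsAdmHom u) : ∃ (y : Mer) (f : FC N) (D : Divisor ℂ (FC N)), WitC Φ u y f D := by
  have hp0 : 0 < p := hp.out.pos
  obtain ⟨y, hy0, hymult, hycusp⟩ := hB.eis u hu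
  have hinv : ∀ γ : Gamma0 N, compMer (γ : SL(2, ℤ)) (y ^ p) = y ^ p := by
    intro γ
    rw [map_pow, hymult γ, mul_pow, ← map_pow, charOf_pow, map_one, one_mul]
  have hcusp : ∀ g : SL(2, ℤ), compMer g (y ^ p) ∈ MerInf N := by
    intro g
    rw [map_pow]
    exact pow_mem (hycusp g) p
  obtain ⟨f, hf⟩ := hB.conv (y ^ p) hinv hcusp
  have hdvd : ∀ Q : Place ℂ (FC N), (p : ℤ) ∣ Q.ord f := by
    refine hB.dict y hy0 f hf ?_ ?_ hycusp
    · intro γ hγ h12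
      have hfin : IsOfFinOrder (⟨γ, hγ⟩ : Gamma0 N) := by
        rw [isOfFinOrder_iff_pow_eq_one]
        exact ⟨12, by norm_num, Subtype.ext h12⟩
      have h1 := hymult ⟨γ, hγ⟩
      rw [(charOf_eq_one_iff _ _).mpr (hu ⟨γ, hγ⟩ (Or.inr hfin)), Units.val_one, map_one,
        one_mul] at h1
      exact h1
    · intro γ hγ htr
      have h4 : (((⟨γ, hγ⟩ : Gamma0 N) : SL(2, ℤ)) : Matrix (Fin 2) (Fin 2) ℤ).trace ^ 2 = 4 := by
        show (γ : Matrix (Fin 2) (Fin 2) ℤ).trace ^ 2 = 4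
        rw [htr]
        norm_num
      have h1 := hymult ⟨γ, hγ⟩
      rw [(charOf_eq_one_iff _ _).mpr (hu ⟨γ, hγ⟩ (Or.inl h4)), Units.val_one, map_one,
        one_mul] at h1
      exact h1
  have hf0 : f ≠ 0 := by
    rintro rfl
    rw [map_zero] at hf
    exact hy0 ((pow_eq_zero_iff hp0.ne').1 hf.symm)
  obtain ⟨D, hD⟩ := exists_divisor_div (K := ℂ) (n := p) hf0 hdvd
  exact ⟨y, f, D, ⟨hy0, hymult, hf.symm, hD⟩⟩

section Hecke

variable {ℓ : ℕ} [hℓ : Fact ℓ.Prime]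

local instance instNeZeroL : NeZero ℓ := ⟨hℓ.out.ne_zero⟩

/-- the Hecke divisor correspondence `α_* β^*` over `ℂ`. -/
abbrev heckeDivC (N ℓ : ℕ) [NeZero N] [NeZero ℓ] : Divisor ℂ (FC N) →+ Divisor ℂ (FC N) :=
  Divisor.correspondence (heckeBetaBar ℂ N ℓ) (heckeAlphaBar ℂ N ℓ)
    (heckeBetaBarIntegral ℂ N ℓ) (heckeAlphaBarIntegral ℂ N ℓ)

/-- `Norm_α (β f)` over `ℂ`. -/
abbrev heckeNormC (N ℓ : ℕ) [NeZero N] [NeZero ℓ] (f : FC N) : FC N :=
  normAlong (heckeAlphaBar ℂ N ℓ) (heckeBetaBar ℂ N ℓ) f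

/-- **the Hecke transform of a witness** -/
theorem wit_hecke (hℓN : ¬ ℓ ∣ N) {Φ : FC N →+* Mer}
    (hA : ∀ f : FC N, Φ (heckeNormC N ℓ f) = heckeProd ℓ (Φ f))
    {u : Additive (Gamma0 N) →+ ZMod p} {y : Mer} {f : FC N} {D : Divisor ℂ (FC N)}
    (h : WitC Φ u y f D) :
    WitC Φ (heckeHom hℓN (ZMod p) u) (heckeProd ℓ y) (heckeNormC N ℓ f) (heckeDivC N ℓ D) where
  ne_zero := heckeProd_ne_zero h.ne_zero
  mult γ := by
    have h1 := compMer_heckeProd_stdAddChar hℓN u y (fun δ => h.mult δ) γ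
    exact h1
  pow_eq := by rw [← map_pow, h.pow_eq, hA]
  div_eq P := by
    have hE : ∀ v : Place ℂ (FC N), ((p : ℤ) • D) v = v.ord f := by
      intro v
      rw [Finsupp.smul_apply, smul_eq_mul, h.div_eq]
    have h1 := correspondence_apply_of_ord (heckeAlphaBar ℂ N ℓ) (heckeBetaBar ℂ N ℓ)
      (heckeAlphaBarIntegral ℂ N ℓ) (heckeBetaBarIntegral ℂ N ℓ) (finiteAlong_alpha ℂ N ℓ)
      (normFormulaAlong_alpha ℂ N ℓ) h.f_ne_zero hE P
    rw [map_zsmul, Finsupp.smul_apply, smul_eq_mul] at h1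
    exact h1

/-- the Prelude's Hecke operator over `ℂ` on the class of a degree-zero divisor. -/
theorem heckeOperatorAlong_mk (D : Divisor ℂ (FC N))
    (hD : D ∈ Divisor.degZero (K := ℂ) (F := FC N))
    (hD' : heckeDivC N ℓ D ∈ Divisor.degZero (K := ℂ) (F := FC N)) :
    heckeOperatorAlong ℂ N ℓ (Pic0.mk ⟨D, hD⟩) = Pic0.mk ⟨heckeDivC N ℓ D, hD'⟩ := by
  rw [heckeOperatorAlong_eq_heckePic0Bar ℂ N ℓ]
  show Pic0.correspondence (heckeBetaBar ℂ N ℓ) (heckeAlphaBar ℂ N ℓ) _ _ _ _ _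
    (Pic0.mk ⟨D, hD⟩) = _
  rw [Pic0.correspondence_mk]
  congr 1

/-- **Hecke equivariance of the Kummer class map over `ℂ`.** -/
theorem cls_heckeHom (hℓN : ¬ ℓ ∣ N) {Φ : FC N →+* Mer} (hB : Blocks N p Φ)
    (hA : ∀ f : FC N, Φ (heckeNormC N ℓ f) = heckeProd ℓ (Φ f))
    (P : Submodule (ZMod p) (Additive (Gamma0 N) →+ ZMod p)) (hP : P ≤ admSub N p)
    (cls : P → Pic0 ℂ (FC N))
    (hspec : ∀ (u : P) (y : Mer) (f : FC N) (D : Divisor ℂ (FC N)),
      WitC Φ (u : Additive (Gamma0 N) →+ ZMod p) y f D →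
      ∃ hD : D ∈ Divisor.degZero (K := ℂ) (F := FC N), cls u = Pic0.mk ⟨D, hD⟩)
    (u : P) (hu : heckeHom hℓN (ZMod p) (u : Additive (Gamma0 N) →+ ZMod p) ∈ P) :
    cls ⟨heckeHom hℓN (ZMod p) (u : Additive (Gamma0 N) →+ ZMod p), hu⟩ =
      heckeOperatorAlong ℂ N ℓ (cls u) := by
  obtain ⟨y, f, D, hW⟩ := exists_wit hB (u : Additive (Gamma0 N) →+ ZMod p) (hP u.2)
  obtain ⟨hD, h1⟩ := hspec u y f D hW
  obtain ⟨hD', h2⟩ := hspec ⟨heckeHom hℓN (ZMod p) (u : Additive (Gamma0 N) →+ ZMod p), hu⟩ _ _ _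
    (wit_hecke hℓN hA hW)
  rw [h1, h2, heckeOperatorAlong_mk D hD hD']

end Hecke

/-! ### the block statement -/

open Fermat.Agent.S29.NonVanish.Skeleton

/-- **block (KC)** of `NonVanish/Skeleton`, from the `Blocks` ledger of `Kummer/ClassMapC` and
the norm formula (A) for every good prime, for any `TopData` whose module is admissible and whose
operators are `Betti.heckeHom`. -/
theorem blockKC_of {Φ : FC N →+* Mer} (hB : Blocks N p Φ)
    (hA : ∀ (ℓ : ℕ) [Fact ℓ.Prime] [NeZero ℓ], ¬ ℓ ∣ N →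
      ∀ f : FC N, Φ (heckeNormC N ℓ f) = heckeProd ℓ (Φ f))
    (D : TopData N p) (hDP : D.P ≤ admSub N p)
    (hDT : ∀ (ℓ : GoodPrime N p) (hℓN : ¬ ((ℓ.1 : ℕ)) ∣ N) (u : D.P),
      haveI : Fact (ℓ.1 : ℕ).Prime := ⟨ℓ.1.2⟩
      ((D.T ℓ u : D.P) : Additive (Gamma0 N) →+ ZMod p) =
        heckeHom hℓN (ZMod p) (u : Additive (Gamma0 N) →+ ZMod p)) :
    BlockKC N p D := by
  obtain ⟨cls, hinj, hspec⟩ := exists_cls hB D.P hDP
  refine ⟨cls.toAddMonoidHom, hinj, fun ℓ u => ?_⟩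
  haveI : Fact (ℓ.1 : ℕ).Prime := ⟨ℓ.1.2⟩
  haveI : NeZero (ℓ.1 : ℕ) := ⟨ℓ.1.2.ne_zero⟩
  have hℓN : ¬ ((ℓ.1 : ℕ)) ∣ N := fun h => ℓ.2 (Dvd.dvd.mul_right h p)
  have hmem : heckeHom hℓN (ZMod p) (u : Additive (Gamma0 N) →+ ZMod p) ∈ D.P := by
    rw [← hDT ℓ hℓN u]
    exact (D.T ℓ u).2
  have hTu : D.T ℓ u = ⟨heckeHom hℓN (ZMod p) (u : Additive (Gamma0 N) →+ ZMod p), hmem⟩ :=
    Subtype.ext (hDT ℓ hℓN u)
  have key := cls_heckeHom hℓN hB (hA (ℓ.1 : ℕ) hℓN) D.P hDP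
    (fun v => ((cls v : Pic0.torsion ℂ (FC N) p) : Pic0 ℂ (FC N))) hspec u hmem
  show ((cls (D.T ℓ u) : Pic0.torsion ℂ (FC N) p) : Pic0 ℂ (FC N)) = heckeC N ℓ.1 _
  rw [hTu]
  exact key

end Fermat.Agent.S29.Hk.Equivariance

end
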