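/-
(Hk-N4a) explicit coset representatives: for a prime `ℓ ∤ N` and `x ∈ ℙ¹(𝔽_ℓ)` an element
`gam x ∈ Γ₀(N)` with `diag(ℓ,1) · gam x = δ_x · heckeRep ℓ x`, `δ_x ∈ Γ₀(N)`, pairwise
inequivalent modulo `Γ₀(Nℓ)`.
-/
import Mathlib
import Fermat.Prelude.Sol.S_ModularForm_heckeT_slash_eq_self_of_mem_Gamma0

set_option autoImplicit false

namespace Fermat.Agent.S29.Hk.CosetReps

open Matrix.SpecialLinearGroup CongruenceSubgroup ModularForm
open P2MW.S_ModularForm_heckeT_slash_eq_self_of_mem_Gamma0.ModularForm.HeckeSlashInvariance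
open scoped MatrixGroups OnePoint

noncomputable section

variable (N ℓ : ℕ) [Fact ℓ.Prime]

/-- the integer `b_j ≡ j - N⁻¹ (mod ℓ)`. -/
def bOf (j : ZMod ℓ) : ℤ := ((j - (N : ZMod ℓ)⁻¹ : ZMod ℓ).val : ℤ)

theorem bOf_cast (j : ZMod ℓ) : ((bOf N ℓ j : ℤ) : ZMod ℓ) = j - (N : ZMod ℓ)⁻¹ := by
  rw [bOf]
  push_cast
  rw [ZMod.natCast_zmod_val]

/-- the matrix `(1, b_j; N, N b_j + 1)`. -/
def gamCoe (j : ZMod ℓ) : SL(2, ℤ) :=
  ⟨!![1, bOf N ℓ j; (N : ℤ), (N : ℤ) * bOf N ℓ j + 1], by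
    rw [Matrix.det_fin_two_of]; ring⟩

/-- the coset representatives. -/
def gam (x : OnePoint (ZMod ℓ)) : SL(2, ℤ) := x.elim 1 (gamCoe N ℓ)

@[simp] theorem gam_infty : gam N ℓ ∞ = 1 := rfl
@[simp] theorem gam_coe (j : ZMod ℓ) : gam N ℓ (j : OnePoint (ZMod ℓ)) = gamCoe N ℓ j := rfl

@[simp] theorem gamCoe_one_zero (j : ZMod ℓ) : gamCoe N ℓ j 1 0 = (N : ℤ) := by
  simp [gamCoe]

@[simp] theorem gamCoe_one_one (j : ZMod ℓ) :
    gamCoe N ℓ j 1 1 = (N : ℤ) * bOf N ℓ j + 1 := by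
  simp [gamCoe]

theorem gam_one_zero_dvd (x : OnePoint (ZMod ℓ)) : (N : ℤ) ∣ gam N ℓ x 1 0 := by
  induction x using OnePoint.rec with
  | infty => simp
  | coe j => simp

theorem gam_mem (x : OnePoint (ZMod ℓ)) : gam N ℓ x ∈ Gamma0 N := by
  rw [Gamma0_mem]
  exact (ZMod.intCast_zmod_eq_zero_iff_dvd _ _).mpr (gam_one_zero_dvd N ℓ x)

variable {N ℓ}

theorem natCast_ne_zero_of_not_dvd (hℓN : ¬ ℓ ∣ N) : (N : ZMod ℓ) ≠ 0 := by
  intro h
  exact hℓN ((ZMod.natCast_eq_zero_iff N ℓ).mp h)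

/-- `diag(ℓ,1) · gam x = δ · heckeRep ℓ x` with `δ ∈ Γ₀(N)`. -/
theorem exists_delta (hℓN : ¬ ℓ ∣ N) (x : OnePoint (ZMod ℓ)) :
    ∃ δ : SL(2, ℤ), δ ∈ Gamma0 N ∧
      heckeDiagMatrix ℓ * mapGL ℝ (gam N ℓ x) = mapGL ℝ δ * heckeRep ℓ x := by
  have hℓ0 : ℓ ≠ 0 := (Fact.out : ℓ.Prime).ne_zero
  induction x using OnePoint.rec with
  | infty =>
    refine ⟨1, one_mem _, ?_⟩
    rw [gam_infty, map_one, mul_one, one_mul, heckeRep_infty]
  | coe j =>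
    have hN := natCast_ne_zero_of_not_dvd hℓN
    obtain ⟨e, he⟩ : (ℓ : ℤ) ∣ gamCoe N ℓ j 1 1 - gamCoe N ℓ j 1 0 * (j.val : ℤ) := by
      rw [← ZMod.intCast_zmod_eq_zero_iff_dvd]
      rw [gamCoe_one_one, gamCoe_one_zero]
      push_cast
      rw [bOf_cast, ZMod.natCast_zmod_val, mul_sub, mul_inv_cancel₀ hN]
      ring
    obtain ⟨g', hg', hmul⟩ := heckeDiagMatrix_mul_of_eq hℓ0 (gamCoe N ℓ j) j.val e
      (by linear_combination he)
    refine ⟨g', ?_, ?_⟩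
    · rw [Gamma0_mem, hg', gamCoe_one_zero]
      simp
    · rw [gam_coe, heckeRep_coe]
      exact hmul

theorem inv_apply_one_zero (g : SL(2, ℤ)) : (g⁻¹ : SL(2, ℤ)) 1 0 = - g 1 0 := by
  rw [Matrix.SpecialLinearGroup.coe_inv, Matrix.adjugate_fin_two]
  simp

theorem inv_apply_zero_zero (g : SL(2, ℤ)) : (g⁻¹ : SL(2, ℤ)) 0 0 = g 1 1 := by
  rw [Matrix.SpecialLinearGroup.coe_inv, Matrix.adjugate_fin_two]
  simp

theorem mul_inv_apply_one_zero (g h : SL(2, ℤ)) :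
    (g * h⁻¹ : SL(2, ℤ)) 1 0 = g 1 0 * h 1 1 - g 1 1 * h 1 0 := by
  rw [Matrix.SpecialLinearGroup.coe_mul, Matrix.mul_apply, Fin.sum_univ_two,
    inv_apply_one_zero, inv_apply_zero_zero]
  ring

theorem dvd_of_mem_Gamma0_mul {g : SL(2, ℤ)} (h : g ∈ Gamma0 (N * ℓ)) : (ℓ : ℤ) ∣ g 1 0 := by
  rw [Gamma0_mem, ZMod.intCast_zmod_eq_zero_iff_dvd] at h
  exact dvd_trans ⟨(N : ℤ), by push_cast; ring⟩ h

/-- the representatives are pairwise inequivalent modulo `Γ₀(Nℓ)`. -/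
theorem gam_inj (hℓN : ¬ ℓ ∣ N) (x y : OnePoint (ZMod ℓ))
    (h : gam N ℓ x * (gam N ℓ y)⁻¹ ∈ Gamma0 (N * ℓ)) : x = y := by
  have hℓ : ℓ.Prime := Fact.out
  have hN := natCast_ne_zero_of_not_dvd hℓN
  have hd := dvd_of_mem_Gamma0_mul h
  rw [mul_inv_apply_one_zero] at hd
  have hnd : ¬ (ℓ : ℤ) ∣ (N : ℤ) := by
    intro h'
    exact hℓN (Int.natCast_dvd_natCast.mp h')
  induction x using OnePoint.rec with
  | infty =>
    induction y using OnePoint.rec with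
    | infty => rfl
    | coe j =>
      exfalso
      rw [gam_infty, gam_coe] at hd
      simp only [Matrix.SpecialLinearGroup.coe_one, Matrix.one_apply_ne (show (1 : Fin 2) ≠ 0 by decide),
        Matrix.one_apply_eq, gamCoe_one_zero, zero_mul, one_mul, zero_sub, dvd_neg] at hd
      exact hnd hd
  | coe i =>
    induction y using OnePoint.rec with
    | infty =>
      exfalso
      rw [gam_infty, gam_coe] at hd
      simp only [Matrix.SpecialLinearGroup.coe_one, Matrix.one_apply_ne (show (1 : Fin 2) ≠ 0 by decide),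
        Matrix.one_apply_eq, gamCoe_one_zero, mul_zero, mul_one, sub_zero] at hd
      exact hnd hd
    | coe j =>
      rw [gam_coe, gam_coe, gamCoe_one_zero, gamCoe_one_zero, gamCoe_one_one, gamCoe_one_one] at hd
      have h1 : ((N : ℤ) * ((N : ℤ) * bOf N ℓ j + 1) - ((N : ℤ) * bOf N ℓ i + 1) * (N : ℤ))
          = (N : ℤ) * (N : ℤ) * (bOf N ℓ j - bOf N ℓ i) := by ring
      rw [h1] at hd
      have h2 : ((((N : ℤ) * (N : ℤ) * (bOf N ℓ j - bOf N ℓ i) : ℤ)) : ZMod ℓ) = 0 :=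
        (ZMod.intCast_zmod_eq_zero_iff_dvd _ _).mpr hd
      push_cast at h2
      rw [bOf_cast, bOf_cast] at h2
      have h3 : (j - (N : ZMod ℓ)⁻¹) - (i - (N : ZMod ℓ)⁻¹) = 0 := by
        rcases mul_eq_zero.mp h2 with h4 | h4
        · exact absurd (mul_self_eq_zero.mp h4) hN
        · exact h4
      have : i = j := by
        have : j - i = 0 := by linear_combination h3
        exact (sub_eq_zero.mp this).symm
      rw [this]

end

end Fermat.Agent.S29.Hk.CosetReps
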