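/-
(Hk-N2) composition of holomorphic / meromorphic functions on `ℍ` with elements of `GL(2,ℝ)` of
positive determinant: `compHolGL A hA : Hol →+* Hol`, `compMerGL A hA : Mer →+* Mer`,
extending the `SL(2,ℤ)`-translates `S24.PsiLe.compMer`.
-/
import Fermat.Agent.S24.PsiLe

set_option autoImplicit false

namespace Fermat.Agent.S29.Hk.CompGL

open UpperHalfPlane Fermat.Agent.S24 Fermat.Agent.S24.PsiLe
open scoped MatrixGroups Manifold

noncomputable section

theorem mdiff_comp_GL (A : GL (Fin 2) ℝ) (hA : 0 < A.det.val) {f : ℍ → ℂ} (hf : MDiff f) :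
    MDiff (fun z : ℍ => f (A • z)) :=
  hf.comp (mdifferentiable_smul hA)

/-- `f ↦ f ∘ A` on `Hol`, for `A ∈ GL(2,ℝ)` with positive determinant. -/
def compHolGL (A : GL (Fin 2) ℝ) (hA : 0 < A.det.val) : Hol →+* Hol where
  toFun f := ⟨fun z => (f : ℍ → ℂ) (A • z), mdiff_comp_GL A hA f.2⟩
  map_one' := rfl
  map_mul' _ _ := rfl
  map_zero' := rfl
  map_add' _ _ := rfl

@[simp] theorem compHolGL_apply (A : GL (Fin 2) ℝ) (hA : 0 < A.det.val) (f : Hol) (z : ℍ) :
    ((compHolGL A hA f : Hol) : ℍ → ℂ) z = (f : ℍ → ℂ) (A • z) := rfl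

theorem compHolGL_injective (A : GL (Fin 2) ℝ) (hA : 0 < A.det.val) :
    Function.Injective (compHolGL A hA) := by
  intro f g h
  refine Hol.ext fun z => ?_
  have := congrFun (congrArg Subtype.val h) (A⁻¹ • z)
  simpa using this

/-- `m ↦ m ∘ A` on `Mer`. -/
def compMerGL (A : GL (Fin 2) ℝ) (hA : 0 < A.det.val) : Mer →+* Mer :=
  IsFractionRing.lift (g := (algebraMap Hol Mer).comp (compHolGL A hA))
    (algebraMap_Hol_Mer_injective.comp (compHolGL_injective A hA))

theorem compMerGL_algebraMap (A : GL (Fin 2) ℝ) (hA : 0 < A.det.val) (f : Hol) :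
    compMerGL A hA (algebraMap Hol Mer f) = algebraMap Hol Mer (compHolGL A hA f) :=
  IsFractionRing.lift_algebraMap _ f

theorem compMerGL_injective (A : GL (Fin 2) ℝ) (hA : 0 < A.det.val) :
    Function.Injective (compMerGL A hA) :=
  (compMerGL A hA).injective

theorem det_mul_pos {A B : GL (Fin 2) ℝ} (hA : 0 < A.det.val) (hB : 0 < B.det.val) :
    0 < (A * B).det.val := by
  rw [map_mul, Units.val_mul]
  exact mul_pos hA hB

/-- composition law of the right action: `(m ∘ A) ∘ B = m ∘ (A B)`. -/
theorem compMerGL_compMerGL (A B : GL (Fin 2) ℝ) (hA : 0 < A.det.val) (hB : 0 < B.det.val)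
    (m : Mer) :
    compMerGL B hB (compMerGL A hA m) = compMerGL (A * B) (det_mul_pos hA hB) m := by
  have h : (compMerGL B hB).comp (compMerGL A hA) = compMerGL (A * B) (det_mul_pos hA hB) := by
    refine IsLocalization.ringHom_ext (nonZeroDivisors Hol) (RingHom.ext fun f => ?_)
    show compMerGL B hB (compMerGL A hA (algebraMap Hol Mer f))
      = compMerGL (A * B) _ (algebraMap Hol Mer f)
    rw [compMerGL_algebraMap, compMerGL_algebraMap, compMerGL_algebraMap]
    congr 1
    refine Hol.ext fun z => ?_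
    rw [compHolGL_apply, compHolGL_apply, compHolGL_apply, mul_smul]
  exact congrArg (fun φ : Mer →+* Mer => φ m) h

theorem compMerGL_congr {A B : GL (Fin 2) ℝ} (h : A = B) (hA : 0 < A.det.val)
    (hB : 0 < B.det.val) (m : Mer) : compMerGL A hA m = compMerGL B hB m := by
  subst h
  rfl

theorem det_one_pos : 0 < (1 : GL (Fin 2) ℝ).det.val := by simp

theorem compMerGL_one (m : Mer) : compMerGL 1 det_one_pos m = m := by
  have h : compMerGL 1 det_one_pos = RingHom.id Mer := by
    refine IsLocalization.ringHom_ext (nonZeroDivisors Hol) (RingHom.ext fun f => ?_)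
    show compMerGL 1 _ (algebraMap Hol Mer f) = algebraMap Hol Mer f
    rw [compMerGL_algebraMap]
    congr 1
    refine Hol.ext fun z => ?_
    rw [compHolGL_apply, one_smul]
  exact congrArg (fun φ : Mer →+* Mer => φ m) h

theorem det_mapGL_pos (γ : SL(2, ℤ)) :
    0 < (Matrix.SpecialLinearGroup.mapGL ℝ γ : GL (Fin 2) ℝ).det.val := by
  simp

/-- the `SL(2,ℤ)`-translates of S24 are the special case `A = mapGL ℝ γ`. -/
theorem compMerGL_mapGL (γ : SL(2, ℤ)) (m : Mer) :
    compMerGL (Matrix.SpecialLinearGroup.mapGL ℝ γ) (det_mapGL_pos γ) m = compMer γ m := by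
  have h : compMerGL (Matrix.SpecialLinearGroup.mapGL ℝ γ) (det_mapGL_pos γ) = compMer γ := by
    refine IsLocalization.ringHom_ext (nonZeroDivisors Hol) (RingHom.ext fun f => ?_)
    show compMerGL _ _ (algebraMap Hol Mer f) = compMer γ (algebraMap Hol Mer f)
    rw [compMerGL_algebraMap, compMer_algebraMap]
    congr 1
  exact congrArg (fun φ : Mer →+* Mer => φ m) h

/-- scalar matrices act trivially. -/
theorem compMerGL_of_smul_eq (A : GL (Fin 2) ℝ) (hA : 0 < A.det.val)
    (h : ∀ z : ℍ, A • z = z) (m : Mer) : compMerGL A hA m = m := by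
  have h' : compMerGL A hA = RingHom.id Mer := by
    refine IsLocalization.ringHom_ext (nonZeroDivisors Hol) (RingHom.ext fun f => ?_)
    show compMerGL A hA (algebraMap Hol Mer f) = algebraMap Hol Mer f
    rw [compMerGL_algebraMap]
    congr 1
    refine Hol.ext fun z => ?_
    rw [compHolGL_apply, h]
  exact congrArg (fun φ : Mer →+* Mer => φ m) h'

/-- matrices with the same action on `ℍ` give the same composition. -/
theorem compMerGL_eq_of_smul_eq (A B : GL (Fin 2) ℝ) (hA : 0 < A.det.val) (hB : 0 < B.det.val)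
    (h : ∀ z : ℍ, A • z = B • z) (m : Mer) : compMerGL A hA m = compMerGL B hB m := by
  have h' : compMerGL A hA = compMerGL B hB := by
    refine IsLocalization.ringHom_ext (nonZeroDivisors Hol) (RingHom.ext fun f => ?_)
    show compMerGL A hA (algebraMap Hol Mer f) = compMerGL B hB (algebraMap Hol Mer f)
    rw [compMerGL_algebraMap, compMerGL_algebraMap]
    congr 1
    refine Hol.ext fun z => ?_
    rw [compHolGL_apply, compHolGL_apply, h]
  exact congrArg (fun φ : Mer →+* Mer => φ m) h'

end

end Fermat.Agent.S29.Hk.CompGL
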