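/-
(Hk) generic leaf: the norm of a finite separable extension as a product over a full set of
pairwise distinct embeddings into an ARBITRARY field `E` (not necessarily algebraically closed).

Intended use: `K = F_ℂ(N)`, `L = F_ℂ(Nℓ)` (algebra structure along the degeneracy map `α`),
`E = S24.Mer`, `Φ` the bridge at level `N`, `σ i = (translate by the coset representative γ_i) ∘
(bridge at level Nℓ)`: then the bridge of `Norm_α u` is `∏_i (bridge u) ∘ γ_i`.
-/
import Mathlib

set_option autoImplicit false

namespace Fermat.Agent.S29.Hk.NormProd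

open Module

variable {K L E : Type*} [Field K] [Field L] [Field E] [Algebra K L]
  [FiniteDimensional K L] [Algebra.IsSeparable K L]

/-- **Norm = product over a full set of distinct embeddings.** -/
theorem map_norm_eq_prod (Φ : K →+* E) {ι : Type*} [Fintype ι] (σ : ι → L →+* E)
    (hσ : ∀ i, (σ i).comp (algebraMap K L) = Φ) (hinj : Function.Injective σ)
    (hcard : Fintype.card ι = Module.finrank K L) (u : L) :
    Φ (Algebra.norm K u) = ∏ i, σ i u := by
  classical
  let Eb := AlgebraicClosure E
  letI : Algebra K Eb := ((algebraMap E Eb).comp Φ).toAlgebra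
  have halg : ∀ x : K, algebraMap K Eb x = algebraMap E Eb (Φ x) := fun _ => rfl
  -- the embeddings into the algebraic closure
  let τ : ι → (L →ₐ[K] Eb) := fun i =>
    { ((algebraMap E Eb).comp (σ i)) with
      commutes' := fun x => by
        show algebraMap E Eb (σ i (algebraMap K L x)) = algebraMap K Eb x
        rw [halg, ← hσ i]
        rfl }
  have hτ_apply : ∀ i (x : L), τ i x = algebraMap E Eb (σ i x) := fun _ _ => rfl
  have hτ_inj : Function.Injective τ := by
    intro i j hij
    apply hinj
    ext x
    have := congrArg (fun f : L →ₐ[K] Eb => f x) hij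
    simp only [hτ_apply] at this
    exact (algebraMap E Eb).injective this
  have hτ_bij : Function.Bijective τ := by
    rw [Fintype.bijective_iff_injective_and_card]
    refine ⟨hτ_inj, ?_⟩
    rw [hcard, AlgHom.card K L Eb]
  have h1 := Algebra.norm_eq_prod_embeddings K Eb u
  rw [halg] at h1
  have h2 : ∏ s : L →ₐ[K] Eb, s u = ∏ i, τ i u :=
    (Fintype.prod_bijective τ hτ_bij (fun i => τ i u) (fun s => s u) (fun _ => rfl)).symm
  rw [h2] at h1
  simp only [hτ_apply] at h1
  rw [← map_prod] at h1
  exact (algebraMap E Eb).injective h1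

/-- The same for the trace. -/
theorem map_trace_eq_sum (Φ : K →+* E) {ι : Type*} [Fintype ι] (σ : ι → L →+* E)
    (hσ : ∀ i, (σ i).comp (algebraMap K L) = Φ) (hinj : Function.Injective σ)
    (hcard : Fintype.card ι = Module.finrank K L) (u : L) :
    Φ (Algebra.trace K L u) = ∑ i, σ i u := by
  classical
  let Eb := AlgebraicClosure E
  letI : Algebra K Eb := ((algebraMap E Eb).comp Φ).toAlgebra
  have halg : ∀ x : K, algebraMap K Eb x = algebraMap E Eb (Φ x) := fun _ => rfl
  let τ : ι → (L →ₐ[K] Eb) := fun i =>
    { ((algebraMap E Eb).comp (σ i)) with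
      commutes' := fun x => by
        show algebraMap E Eb (σ i (algebraMap K L x)) = algebraMap K Eb x
        rw [halg, ← hσ i]
        rfl }
  have hτ_apply : ∀ i (x : L), τ i x = algebraMap E Eb (σ i x) := fun _ _ => rfl
  have hτ_inj : Function.Injective τ := by
    intro i j hij
    apply hinj
    ext x
    have := congrArg (fun f : L →ₐ[K] Eb => f x) hij
    simp only [hτ_apply] at this
    exact (algebraMap E Eb).injective this
  have hτ_bij : Function.Bijective τ := by
    rw [Fintype.bijective_iff_injective_and_card]
    refine ⟨hτ_inj, ?_⟩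
    rw [hcard, AlgHom.card K L Eb]
  have h1 := trace_eq_sum_embeddings (K := K) (L := L) Eb (x := u)
  rw [halg] at h1
  have h2 : ∑ s : L →ₐ[K] Eb, s u = ∑ i, τ i u :=
    (Fintype.sum_bijective τ hτ_bij (fun i => τ i u) (fun s => s u) (fun _ => rfl)).symm
  rw [h2] at h1
  simp only [hτ_apply] at h1
  rw [← map_sum] at h1
  exact (algebraMap E Eb).injective h1

end Fermat.Agent.S29.Hk.NormProd
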