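/-
(Hk-N3) The norm along a degeneracy map, seen through two "bridges" into `S24.Mer`, is the product
of the translates over the cosets `G / H` (hypothesis-style: `G = Γ₀(N)`, `H = Γ₀(Nℓ)`,
`Φ, Φ'` the bridges at the levels `N`, `Nℓ`, `α` the degeneracy map `F_N → F_{Nℓ}`).
-/
import Fermat.Agent.S29.Hk.NormProd
import Fermat.Agent.S29.Hk.CompGL
import Fermat.Agent.S24.PhiInvGen
import Fermat.Prelude.Def_AlgebraicCurve_Correspondence

set_option autoImplicit false

namespace Fermat.Agent.S29.Hk.NormCosets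

open UpperHalfPlane Fermat.Agent.S24 Fermat.Agent.S24.PsiLe AlgebraicCurve
open scoped MatrixGroups

noncomputable section

variable {K F F' : Type*} [Field K] [Field F] [Field F'] [Algebra K F] [Algebra K F']

/-- the conjugate `y ↦ (Φ' y) ∘ g⁻¹`. -/
def conj (Φ' : F' →+* Mer) (g : SL(2, ℤ)) : F' →+* Mer := (compMer g⁻¹).comp Φ'

theorem conj_apply (Φ' : F' →+* Mer) (g : SL(2, ℤ)) (y : F') :
    conj Φ' g y = compMer g⁻¹ (Φ' y) := rfl

/-- the conjugate only depends on the left coset `g H`, if `Φ'` is `H`-invariant. -/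
theorem conj_eq_of_coset {H : Subgroup SL(2, ℤ)} (Φ' : F' →+* Mer)
    (hinv' : ∀ γ ∈ H, ∀ y, compMer γ (Φ' y) = Φ' y) {g g' : SL(2, ℤ)} (h : g⁻¹ * g' ∈ H) :
    conj Φ' g = conj Φ' g' := by
  ext y
  rw [conj_apply, conj_apply]
  have e : g'⁻¹ = (g⁻¹ * g')⁻¹ * g⁻¹ := by group
  rw [e, ← PhiInvGen.compMer_compMer, hinv' _ (inv_mem h)]

/-- distinct cosets give distinct conjugates, if `H` is the full stabiliser of `Φ'` in `G`. -/
theorem mem_of_conj_eq {G H : Subgroup SL(2, ℤ)} (Φ' : F' →+* Mer)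
    (hdist : ∀ γ ∈ G, (∀ y, compMer γ (Φ' y) = Φ' y) → γ ∈ H) {g g' : SL(2, ℤ)} (hg : g ∈ G)
    (hg' : g' ∈ G) (h : conj Φ' g = conj Φ' g') : g⁻¹ * g' ∈ H := by
  refine hdist _ (mul_mem (inv_mem hg) hg') fun y => ?_
  have h1 : compMer g⁻¹ (Φ' y) = compMer g'⁻¹ (Φ' y) := by
    have := congrArg (fun φ : F' →+* Mer => φ y) h
    simpa [conj_apply] using this
  have h2 := congrArg (compMer g') h1
  rw [PhiInvGen.compMer_compMer, PhiInvGen.compMer_compMer, inv_mul_cancel,
    PhiInvGen.compMer_one] at h2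
  exact h2

variable [CharZero F]

/-- **(N): the norm along `α` as a product over a system of pairwise inequivalent elements
`g i ∈ G` (modulo `H` on the right) of the right cardinality.** -/
theorem map_norm_along_eq_prod (α : F →ₐ[K] F') (hfin : FiniteAlong K α)
    (G H : Subgroup SL(2, ℤ)) (Φ : F →+* Mer) (Φ' : F' →+* Mer)
    (hα : ∀ x, Φ' (α x) = Φ x)
    (hinv : ∀ γ ∈ G, ∀ x, compMer γ (Φ x) = Φ x)
    (hdist : ∀ γ ∈ G, (∀ y, compMer γ (Φ' y) = Φ' y) → γ ∈ H)
    {ι : Type*} [Fintype ι] (g : ι → SL(2, ℤ)) (hg : ∀ i, g i ∈ G)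
    (hne : ∀ i j, (g i)⁻¹ * g j ∈ H → i = j)
    (hcard : Fintype.card ι = finrankAlong K α) (u : F') :
    letI := algebraAlong α
    Φ (Algebra.norm F u) = ∏ i, compMer (g i)⁻¹ (Φ' u) := by
  letI := algebraAlong α
  haveI : Module.Finite F F' := hfin
  haveI : Algebra.IsAlgebraic F F' := Algebra.IsAlgebraic.of_finite F F'
  haveI : Algebra.IsSeparable F F' := inferInstance
  let σ : ι → F' →+* Mer := fun i => conj Φ' (g i)
  have hσ : ∀ i, (σ i).comp (algebraMap F F') = Φ := by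
    intro i
    ext x
    show compMer _ (Φ' (α x)) = Φ x
    rw [hα, hinv _ (inv_mem (hg i))]
  have hinj : Function.Injective σ := fun i j h =>
    hne i j (mem_of_conj_eq (G := G) (H := H) Φ' hdist (hg i) (hg j) h)
  have hcard' : Fintype.card ι = Module.finrank F F' := hcard
  have := NormProd.map_norm_eq_prod Φ σ hσ hinj hcard' u
  rw [this]
  rfl

end

end Fermat.Agent.S29.Hk.NormCosets
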