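/-
(Hk-N4b) The norm along the degeneracy map `α` of `β u`, seen through two bridges into `S24.Mer`,
is the product of the translates of `Φ u` by the Hecke representatives `heckeRep ℓ x`,
`x ∈ ℙ¹(𝔽_ℓ)`; and the multiplier of such a product.
-/
import Fermat.Agent.S29.Hk.NormCosets
import Fermat.Agent.S29.Hk.CosetReps

set_option autoImplicit false

namespace Fermat.Agent.S29.Hk.NormHecke

open UpperHalfPlane Fermat.Agent.S24 Fermat.Agent.S24.PsiLe AlgebraicCurve CongruenceSubgroup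
open Matrix.SpecialLinearGroup ModularForm
open Fermat.Agent.S29.Hk.CompGL Fermat.Agent.S29.Hk.CosetReps
open P2MW.S_ModularForm_heckeT_slash_eq_self_of_mem_Gamma0.ModularForm.HeckeSlashInvariance
open scoped MatrixGroups OnePoint

noncomputable section

theorem det_heckeDiagMatrix_pos {ℓ : ℕ} (hℓ : ℓ ≠ 0) : 0 < (heckeDiagMatrix ℓ).det.val := by
  rw [Matrix.GeneralLinearGroup.val_det_apply, val_heckeDiagMatrix hℓ, Matrix.det_fin_two_of]
  have : (0 : ℝ) < ℓ := by exact_mod_cast Nat.pos_of_ne_zero hℓ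
  linarith

theorem det_heckeMatrix_pos {ℓ : ℕ} (hℓ : ℓ ≠ 0) (j : ℕ) : 0 < (heckeMatrix ℓ j).det.val := by
  rw [Matrix.GeneralLinearGroup.val_det_apply, val_heckeMatrix hℓ, Matrix.det_fin_two_of]
  have : (0 : ℝ) < ℓ := by exact_mod_cast Nat.pos_of_ne_zero hℓ
  linarith

theorem det_heckeRep_pos {ℓ : ℕ} (hℓ : ℓ ≠ 0) (x : OnePoint (ZMod ℓ)) :
    0 < (heckeRep ℓ x).det.val := by
  induction x using OnePoint.rec with
  | infty => exact det_heckeDiagMatrix_pos hℓ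
  | coe j => exact det_heckeMatrix_pos hℓ j.val

theorem card_onePoint (ℓ : ℕ) [NeZero ℓ] : Fintype.card (OnePoint (ZMod ℓ)) = ℓ + 1 := by
  show Fintype.card (Option (ZMod ℓ)) = ℓ + 1
  rw [Fintype.card_option, ZMod.card]

/-- constants are fixed by `compMerGL`. -/
theorem compMerGL_const (A : GL (Fin 2) ℝ) (hA : 0 < A.det.val) (c : ℂ) :
    compMerGL A hA (algebraMap ℂ Mer c) = algebraMap ℂ Mer c := by
  rw [IsScalarTower.algebraMap_apply ℂ Hol Mer, compMerGL_algebraMap]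
  congr 1

section norm

variable {K F F' : Type*} [Field K] [Field F] [Field F'] [Algebra K F] [Algebra K F'] [CharZero F]

/-- **(N4): `Φ (Norm_α (β u)) = ∏_{x ∈ ℙ¹(𝔽_ℓ)} (Φ u) ∘ heckeRep ℓ x`.** -/
theorem map_norm_beta_eq_prod (α β : F →ₐ[K] F') (hfin : FiniteAlong K α)
    (N ℓ : ℕ) [Fact ℓ.Prime] (hℓN : ¬ ℓ ∣ N) (hℓ0 : ℓ ≠ 0)
    (Φ : F →+* Mer) (Φ' : F' →+* Mer)
    (hα : ∀ x, Φ' (α x) = Φ x)
    (hβ : ∀ x, Φ' (β x) = compMerGL (heckeDiagMatrix ℓ) (det_heckeDiagMatrix_pos hℓ0) (Φ x))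
    (hinv : ∀ γ ∈ Gamma0 N, ∀ x, compMer γ (Φ x) = Φ x)
    (hdist : ∀ γ ∈ Gamma0 N, (∀ y, compMer γ (Φ' y) = Φ' y) → γ ∈ Gamma0 (N * ℓ))
    (hdeg : finrankAlong K α = ℓ + 1) (u : F) :
    letI := algebraAlong α
    Φ (Algebra.norm F (β u))
      = ∏ x : OnePoint (ZMod ℓ), compMerGL (heckeRep ℓ x) (det_heckeRep_pos hℓ0 x) (Φ u) := by
  haveI : NeZero ℓ := ⟨hℓ0⟩
  have h := NormCosets.map_norm_along_eq_prod α hfin (Gamma0 N) (Gamma0 (N * ℓ)) Φ Φ' hα hinv hdist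
    (fun x : OnePoint (ZMod ℓ) => (gam N ℓ x)⁻¹) (fun x => inv_mem (gam_mem N ℓ x))
    (fun x y hxy => gam_inj hℓN x y (by simpa using hxy))
    (by rw [card_onePoint, hdeg]) (β u)
  rw [h]
  refine Finset.prod_congr rfl fun x _ => ?_
  obtain ⟨δ, hδ, hrel⟩ := exists_delta hℓN x
  rw [inv_inv, hβ, ← compMerGL_mapGL, compMerGL_compMerGL,
    compMerGL_congr hrel _ (det_mul_pos (det_mapGL_pos δ) (det_heckeRep_pos hℓ0 x)),
    ← compMerGL_compMerGL _ _ (det_mapGL_pos δ) (det_heckeRep_pos hℓ0 x), compMerGL_mapGL,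
    hinv δ hδ]

end norm

section multiplier

variable {ℓ : ℕ}

/-- **multiplier of the product `∏_x f ∘ heckeRep ℓ x`.** -/
theorem compMer_prod_heckeRep (hℓ0 : ℓ ≠ 0) [NeZero ℓ] (f : Mer) (γ : SL(2, ℤ))
    (γ' : OnePoint (ZMod ℓ) → SL(2, ℤ)) (σ : Equiv.Perm (OnePoint (ZMod ℓ)))
    (c : OnePoint (ZMod ℓ) → ℂ)
    (hrel : ∀ x, heckeRep ℓ x * mapGL ℝ γ = mapGL ℝ (γ' x) * heckeRep ℓ (σ x))
    (hc : ∀ x, compMer (γ' x) f = algebraMap ℂ Mer (c x) * f) :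
    compMer γ (∏ x : OnePoint (ZMod ℓ), compMerGL (heckeRep ℓ x) (det_heckeRep_pos hℓ0 x) f)
      = algebraMap ℂ Mer (∏ x, c x) *
        ∏ x : OnePoint (ZMod ℓ), compMerGL (heckeRep ℓ x) (det_heckeRep_pos hℓ0 x) f := by
  rw [map_prod, map_prod, ← Finset.prod_mul_distrib]
  have h1 : ∀ x, compMer γ (compMerGL (heckeRep ℓ x) (det_heckeRep_pos hℓ0 x) f)
      = algebraMap ℂ Mer (c x) *
        compMerGL (heckeRep ℓ (σ x)) (det_heckeRep_pos hℓ0 (σ x)) f := by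
    intro x
    rw [← compMerGL_mapGL, compMerGL_compMerGL,
      compMerGL_congr (hrel x) _ (det_mul_pos (det_mapGL_pos (γ' x)) (det_heckeRep_pos hℓ0 (σ x))),
      ← compMerGL_compMerGL _ _ (det_mapGL_pos (γ' x)) (det_heckeRep_pos hℓ0 (σ x)),
      compMerGL_mapGL, hc x, map_mul, compMerGL_const]
  simp_rw [h1]
  rw [Finset.prod_mul_distrib, Finset.prod_mul_distrib]
  congr 1
  exact Equiv.prod_comp σ (fun y => compMerGL (heckeRep ℓ y) (det_heckeRep_pos hℓ0 y) f)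

end multiplier

end

end Fermat.Agent.S29.Hk.NormHecke
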