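/-
Adapter between the two (independently landed, definitionally parallel) copies of the
`GL₂(ℝ)⁺`-translates on `S24.Mer`: `Hk.CompGL.compMerGL` (used by `Hk.NormHecke`) and
`Hk.MerHecke.compMerGL` (helper15; carries the cusp lemmas).  Restates the norm formula (N4) and
the multiplier law in `MerHecke` terms.
-/
import Fermat.Agent.S29.Hk.NormHecke
import Fermat.Agent.S29.Hk.MerHecke

set_option autoImplicit false

namespace Fermat.Agent.S29.Hk.CompGLAdapter

open UpperHalfPlane Fermat.Agent.S24 Fermat.Agent.S24.PsiLe AlgebraicCurve CongruenceSubgroup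
open Matrix.SpecialLinearGroup ModularForm
open P2MW.S_ModularForm_heckeT_slash_eq_self_of_mem_Gamma0.ModularForm.HeckeSlashInvariance
open scoped MatrixGroups OnePoint

noncomputable section

theorem compHolGL_eq (A : GL (Fin 2) ℝ) (hA : 0 < A.det.val) :
    CompGL.compHolGL A hA = MerHecke.compHolGL A hA := by
  ext f z
  rfl

theorem compMerGL_eq (A : GL (Fin 2) ℝ) (hA : 0 < A.det.val) :
    CompGL.compMerGL A hA = MerHecke.compMerGL A hA := by
  refine IsLocalization.ringHom_ext (nonZeroDivisors Hol) (RingHom.ext fun f => ?_)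
  show CompGL.compMerGL A hA (algebraMap Hol Mer f) = MerHecke.compMerGL A hA (algebraMap Hol Mer f)
  rw [CompGL.compMerGL_algebraMap, compHolGL_eq]
  exact (MerHecke.compMerGL_toMer A hA f).symm

theorem compMerGL_apply_eq (A : GL (Fin 2) ℝ) (hA : 0 < A.det.val) (m : Mer) :
    CompGL.compMerGL A hA m = MerHecke.compMerGL A hA m := by
  rw [compMerGL_eq]

variable {K F F' : Type*} [Field K] [Field F] [Field F'] [Algebra K F] [Algebra K F'] [CharZero F]

/-- (N4) in `MerHecke` terms. -/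
theorem map_norm_beta_eq_prod (α β : F →ₐ[K] F') (hfin : FiniteAlong K α)
    (N ℓ : ℕ) [Fact ℓ.Prime] (hℓN : ¬ ℓ ∣ N) (hℓ0 : ℓ ≠ 0)
    (Φ : F →+* Mer) (Φ' : F' →+* Mer)
    (hα : ∀ x, Φ' (α x) = Φ x)
    (hβ : ∀ x, Φ' (β x)
      = MerHecke.compMerGL (heckeDiagMatrix ℓ) (NormHecke.det_heckeDiagMatrix_pos hℓ0) (Φ x))
    (hinv : ∀ γ ∈ Gamma0 N, ∀ x, compMer γ (Φ x) = Φ x)
    (hdist : ∀ γ ∈ Gamma0 N, (∀ y, compMer γ (Φ' y) = Φ' y) → γ ∈ Gamma0 (N * ℓ))
    (hdeg : finrankAlong K α = ℓ + 1) (u : F) :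
    letI := algebraAlong α
    Φ (Algebra.norm F (β u))
      = ∏ x : OnePoint (ZMod ℓ),
          MerHecke.compMerGL (heckeRep ℓ x) (NormHecke.det_heckeRep_pos hℓ0 x) (Φ u) := by
  have h := NormHecke.map_norm_beta_eq_prod α β hfin N ℓ hℓN hℓ0 Φ Φ' hα
    (fun x => by rw [hβ x, compMerGL_apply_eq]) hinv hdist hdeg u
  rw [h]
  exact Finset.prod_congr rfl fun x _ => compMerGL_apply_eq _ _ _

end

end Fermat.Agent.S29.Hk.CompGLAdapter
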