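import Mathlib
import Fermat.Agent.S29.HeckeInputsL
import Fermat.Agent.S20.Psi

/-!
# S29 (R3, leaf Hk-deg): `[F_L (Mℓ) : α (F_L M)] = ℓ + 1` for a prime `ℓ ∤ M`, over ANY field `L`
of characteristic zero

`F_L M := laurentBaseChange L (modularFunctionFieldFull M)`, `α = heckeAlphaBar L M ℓ` the inclusion
`F_L M ⊂ F_L (M ℓ)`.  Tower `L(J) ⊂ F_L M ⊂ F_L (M ℓ)` with `[F_L M : L(J)] = ψ(M)`
(`S18.Gauss.Concrete.finrank_eq_psi`, generic in `L`) and `ψ(M ℓ) = (ℓ + 1) ψ(M)`.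
(Port of `S37/Kron/Degree.lean`, which is hard-wired to `ℚ̄`.)
-/

set_option autoImplicit false
set_option linter.style.haveILetI false

namespace Fermat.Agent.S29.Hk.DegreeL

open AlgebraicCurve IntermediateField ModularCurve
open Fermat.Agent.S18.Gauss
open Fermat.Agent.S29.HeckeInputsL

noncomputable section

variable (L : Type*) [Field L] [Algebra ℚ L] (M ℓ : ℕ) [NeZero M] [NeZero ℓ]

/-- `[F_L (Mℓ) : α F_L M] · ψ(M) = ψ(Mℓ)` for all `M, ℓ`. -/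
theorem psi_mul_finrank_alpha :
    letI := AlgebraicCurve.algebraAlong (heckeAlphaBar L M ℓ)
    dedekindPsi M * Module.finrank (FL L M) (FL L (M * ℓ)) = dedekindPsi (M * ℓ) := by
  letI := AlgebraicCurve.algebraAlong (heckeAlphaBar L M ℓ)
  letI alg0 : Algebra ↥L⟮JL L M⟯ (FL L (M * ℓ)) :=
    ((heckeAlphaBar L M ℓ).toRingHom.comp (algebraMap ↥L⟮JL L M⟯ (FL L M))).toAlgebra
  haveI : IsScalarTower ↥L⟮JL L M⟯ (FL L M) (FL L (M * ℓ)) :=
    IsScalarTower.of_algebraMap_eq (fun x => rfl)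
  haveI := finiteDimensional_JL L M
  have h1 := Module.finrank_mul_finrank ↥L⟮JL L M⟯ (FL L M) (FL L (M * ℓ))
  have hmap : (L⟮JL L M⟯).map (heckeAlphaBar L M ℓ) = L⟮JL L (M * ℓ)⟯ := by
    rw [IntermediateField.adjoin_map, Set.image_singleton, heckeAlphaBar_JL]
  let e₁ : ↥L⟮JL L M⟯ ≃+* ↥L⟮JL L (M * ℓ)⟯ :=
    ((L⟮JL L M⟯).equivMap (heckeAlphaBar L M ℓ)).toRingEquiv.trans
      (IntermediateField.equivOfEq hmap).toRingEquiv
  have h2 : Module.finrank ↥L⟮JL L M⟯ (FL L (M * ℓ)) =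
      Module.finrank ↥L⟮JL L (M * ℓ)⟯ (FL L (M * ℓ)) :=
    Algebra.finrank_eq_of_equiv_equiv e₁ (RingEquiv.refl _) (by ext x; rfl)
  rw [h2, Concrete.finrank_eq_psi, Concrete.finrank_eq_psi] at h1
  exact h1

/-- **`[F_L (Mℓ) : α F_L M] = ℓ + 1`** for a prime `ℓ ∤ M`. -/
theorem finrank_alpha (hℓ : ℓ.Prime) (hℓM : ¬ ℓ ∣ M) :
    letI := AlgebraicCurve.algebraAlong (heckeAlphaBar L M ℓ)
    Module.finrank (FL L M) (FL L (M * ℓ)) = ℓ + 1 := by
  have h := psi_mul_finrank_alpha L M ℓ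
  rw [Fermat.Agent.S20.dedekindPsi_mul_prime_of_not_dvd (NeZero.ne M) hℓ hℓM, mul_comm] at h
  have hpos : 0 < dedekindPsi M := by
    rw [← Concrete.finrank_eq_psi L M]
    haveI := finiteDimensional_JL L M
    exact Module.finrank_pos
  exact Nat.eq_of_mul_eq_mul_right hpos h

/-- the same with explicit `RingHom.toAlgebra` structure (the shape `Algebra.norm` consumers use) -/
theorem finrank_alpha' (hℓ : ℓ.Prime) (hℓM : ¬ ℓ ∣ M) :
    @Module.finrank (FL L M) (FL L (M * ℓ)) _ _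
      (heckeAlphaBar L M ℓ).toRingHom.toAlgebra.toModule = ℓ + 1 :=
  finrank_alpha L M ℓ hℓ hℓM

end

end Fermat.Agent.S29.Hk.DegreeL
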