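/-
(Hk-D) The stabiliser of the bridge at level `M` inside `SL(2,ℤ)` is `Γ₀(M)`: an element `γ` with
`(Φ_M y) ∘ γ = Φ_M y` for the generator `y = j(Mz)` lies in `Γ₀(M)`.  This is the distinctness
hypothesis `hdist` of `Hk.NormHecke.map_norm_beta_eq_prod` (at `M = N * ℓ`).
-/
import Fermat.Agent.S29.ModFunC.BridgeFacts
import Fermat.Agent.S24.PsiLe

set_option autoImplicit false

namespace Fermat.Agent.S29.Hk.EmbCount

open UpperHalfPlane CongruenceSubgroup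
open Fermat.Agent.S24 Fermat.Agent.S24.PsiLe Fermat.Agent.S24.JBridge Fermat.Agent.S29.ModFunC
open scoped MatrixGroups

noncomputable section

/-- **stabiliser of `j(Mz)`** in `SL(2,ℤ)`, in `Mer` form. -/
theorem mem_Gamma0_of_compMer_jdHol (M : ℕ) [NeZero M] (γ : SL(2, ℤ))
    (h : compMer γ (algebraMap Hol Mer (jdHol M)) = algebraMap Hol Mer (jdHol M)) :
    γ ∈ Gamma0 M := by
  rw [compMer_algebraMap] at h
  have h1 : compHol γ (jdHol M) = jdHol M := algebraMap_Hol_Mer_injective h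
  refine JConj.mem_Gamma0_of_comp_eq jFun_smul tendsto_jFun_mul_qParam M γ fun z => ?_
  have h2 := congrFun (congrArg Subtype.val h1) z
  have e1 : ((compHol γ (jdHol M) : Hol) : ℍ → ℂ) z = jFun (JConj.mulN M (γ • z)) := by
    rw [compHol_apply]
    exact jdHol_apply_of_eq M _ _ (JConj.coe_mulN M _)
  have e2 : ((jdHol M : Hol) : ℍ → ℂ) z = jFun (JConj.mulN M z) :=
    jdHol_apply_of_eq M _ _ (JConj.coe_mulN M _)
  rw [← e1, ← e2]
  exact h2

variable {K : Type*} [Field K] [Algebra ℚ K] (ι : K →+* ℂ)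

/-- **(D)** the stabiliser of the bridge `PhiK M ι` in `SL(2,ℤ)` is contained in `Γ₀(M)`. -/
theorem mem_Gamma0_of_compMer_PhiK (M : ℕ) [NeZero M] (γ : SL(2, ℤ))
    (h : ∀ y : ↥(FK K M), compMer γ (PhiK M ι y) = PhiK M ι y) : γ ∈ Gamma0 M := by
  have h1 := h (JdK (K := K) M M (dvd_refl M))
  rw [PhiK_JdK] at h1
  exact mem_Gamma0_of_compMer_jdHol M γ h1

/-- the form consumed by `Hk.NormHecke.map_norm_beta_eq_prod`. -/
theorem hdist (N ℓ : ℕ) [NeZero N] [NeZero ℓ] :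
    ∀ γ ∈ Gamma0 N, (∀ y : ↥(FK K (N * ℓ)), compMer γ (PhiK (N * ℓ) ι y) = PhiK (N * ℓ) ι y) →
      γ ∈ Gamma0 (N * ℓ) :=
  fun γ _ h => mem_Gamma0_of_compMer_PhiK ι (N * ℓ) γ h

end

end Fermat.Agent.S29.Hk.EmbCount
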