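/-
(Hk-A) The norm formula at the bridges `PhiK N ι`, `PhiK (N ℓ) ι`, conditional only on the
cross-level compatibilities `hα`, `hβ` of the bridges (leaf `ModFunC/CrossLevel`):
`PhiK N ι (Norm_α (β f)) = ∏_{x ∈ ℙ¹(𝔽_ℓ)} (PhiK N ι f) ∘ heckeRep ℓ x`.
-/
import Fermat.Agent.S29.Hk.CompGLAdapter
import Fermat.Agent.S29.Hk.EmbCount
import Fermat.Agent.S29.Hk.DegreeL

set_option autoImplicit false

namespace Fermat.Agent.S29.Hk.NormPhiC

open UpperHalfPlane CongruenceSubgroup AlgebraicCurve ModularCurve ModularForm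
open Fermat.Agent.S24 Fermat.Agent.S24.PsiLe Fermat.Agent.S29.ModFunC
open P2MW.S_ModularForm_heckeT_slash_eq_self_of_mem_Gamma0.ModularForm.HeckeSlashInvariance
open scoped MatrixGroups OnePoint

noncomputable section

variable {L : Type*} [Field L] [Algebra ℚ L] (ι : L →+* ℂ)
  (N ℓ : ℕ) [NeZero N] [NeZero ℓ] [Fact ℓ.Prime]

/-- **(A)** the norm formula at the bridges, conditional on the cross-level compatibilities. -/
theorem map_norm_beta_eq_prod (hℓN : ¬ ℓ ∣ N) (hℓ0 : ℓ ≠ 0)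
    (hα : ∀ x, PhiK (N * ℓ) ι (heckeAlphaBar L N ℓ x) = PhiK N ι x)
    (hβ : ∀ x, PhiK (N * ℓ) ι (heckeBetaBar L N ℓ x)
      = MerHecke.compMerGL (heckeDiagMatrix ℓ) (NormHecke.det_heckeDiagMatrix_pos hℓ0)
          (PhiK N ι x))
    (f : ↥(FK L N)) :
    letI := algebraAlong (heckeAlphaBar L N ℓ)
    PhiK N ι (Algebra.norm ↥(FK L N) (heckeBetaBar L N ℓ f))
      = ∏ x : OnePoint (ZMod ℓ),
          MerHecke.compMerGL (heckeRep ℓ x) (NormHecke.det_heckeRep_pos hℓ0 x) (PhiK N ι f) := by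
  haveI : CharZero ↥(FK L N) := HeckeInputsL.charZero_FL L N
  exact CompGLAdapter.map_norm_beta_eq_prod (heckeAlphaBar L N ℓ) (heckeBetaBar L N ℓ)
    (HeckeInputsL.finiteAlong_alpha L N ℓ) N ℓ hℓN hℓ0 (PhiK N ι) (PhiK (N * ℓ) ι) hα hβ
    (fun γ hγ x => compMer_PhiK N ι hγ x) (EmbCount.hdist ι N ℓ)
    (DegreeL.finrank_alpha L N ℓ Fact.out hℓN) f

end

end Fermat.Agent.S29.Hk.NormPhiC
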