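import Mathlib
import Fermat.Agent.S29.Hk.HeckeProd
import Fermat.Agent.S29.Hk.Equivariant

/-!
# S29 (R3, block Hk): `heckeProd ℓ` as the `Hp` of `Hk/Equivariant.lean`

* `zetaMer p : Mer` : the constant `exp (2 π i / p)`; `zetaMer p ^ a.val = stdAddChar a`;
* `isPrimitiveRoot_zetaMer`, `compMer_zetaMer` : the fields `prim`, `rho_zeta` of
  `Equivariant.Bridge`;
* `hHp_heckeProd` : the hypothesis `hHp` of `Equivariant.Kum.hecke` / `section_hecke` for
  `Hp := heckeProd ℓ`, `Ttop := heckeHom hℓN (ZMod p)`, `ρ γ := compMer γ` (`γ : Γ₀(N)`),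
  `ζ := zetaMer p`.
-/

set_option autoImplicit false

noncomputable section

open UpperHalfPlane Matrix.SpecialLinearGroup CongruenceSubgroup
open scoped MatrixGroups

namespace Fermat.Agent.S29.Hk.HpInst

open Fermat.Agent.S24 Fermat.Agent.S24.PsiLe Fermat.Agent.S29.Hk.MerHecke Fermat.Agent.S29.Betti
open Fermat.Agent.S29.Hk.HeckeProd

variable (p : ℕ) [NeZero p]

/-- the constant `exp (2 π i / p)` as a meromorphic function. -/
def zetaMer : Mer := algebraMap ℂ Mer (ZMod.stdAddChar (1 : ZMod p))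

variable {p}

theorem stdAddChar_eq_pow (a : ZMod p) :
    ZMod.stdAddChar a = (ZMod.stdAddChar (1 : ZMod p)) ^ a.val := by
  rw [← AddChar.map_nsmul_eq_pow, nsmul_eq_mul, mul_one, ZMod.natCast_zmod_val]

theorem zetaMer_pow_val (a : ZMod p) :
    zetaMer p ^ a.val = algebraMap ℂ Mer (ZMod.stdAddChar a) := by
  rw [zetaMer, ← map_pow, ← stdAddChar_eq_pow]

theorem algebraMap_Mer_injective : Function.Injective (algebraMap ℂ Mer) :=
  (algebraMap ℂ Mer).injective

theorem isPrimitiveRoot_zetaMer : IsPrimitiveRoot (zetaMer p) p := by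
  have h : IsPrimitiveRoot (ZMod.stdAddChar (1 : ZMod p)) p := by
    rw [ZMod.stdAddChar_apply, ZMod.toCircle_apply]
    have : ((1 : ZMod p).val : ℂ) = 1 ∨ p = 1 := by
      rcases Nat.lt_or_ge 1 p with h1 | h1
      · left
        have : Fact (1 < p) := ⟨h1⟩
        rw [ZMod.val_one]
        simp
      · right
        have := NeZero.pos p
        omega
    rcases this with h1 | h1
    · rw [h1]
      have := Complex.isPrimitiveRoot_exp p (NeZero.ne p)
      convert this using 2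
      ring
    · subst h1
      simp
  exact h.map_of_injective algebraMap_Mer_injective

theorem compMer_algebraMap_const (γ : SL(2, ℤ)) (c : ℂ) :
    compMer γ (algebraMap ℂ Mer c) = algebraMap ℂ Mer c := by
  rw [← compMerGL_mapGL, compMerGL_algebraMap]

theorem compMer_zetaMer (γ : SL(2, ℤ)) : compMer γ (zetaMer p) = zetaMer p :=
  compMer_algebraMap_const γ _

variable {ℓ : ℕ} [Fact ℓ.Prime] {N : ℕ}

/-- **the hypothesis `hHp` of `Equivariant.Kum.hecke`** for `Hp := heckeProd ℓ`,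
`Ttop := heckeHom hℓN (ZMod p)`. -/
theorem hHp_heckeProd (hℓN : ¬ ℓ ∣ N) (y : Mer) (u : Additive (Gamma0 N) →+ ZMod p)
    (hy : ∀ γ : Gamma0 N, compMer (γ : SL(2, ℤ)) y =
      zetaMer p ^ (u (Additive.ofMul γ)).val * y) (γ : Gamma0 N) :
    compMer (γ : SL(2, ℤ)) (heckeProd ℓ y) =
      zetaMer p ^ (heckeHom hℓN (ZMod p) u (Additive.ofMul γ)).val * heckeProd ℓ y := by
  rw [zetaMer_pow_val]
  apply compMer_heckeProd_stdAddChar hℓN u y
  intro δ
  rw [hy δ, zetaMer_pow_val]

/-- the same, literally in the shape consumed by `Equivariant.Kum.hecke`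
(`ρ := fun γ : Γ₀(N) => compMer γ`). -/
theorem hHp_heckeProd' (hℓN : ¬ ℓ ∣ N) :
    ∀ (y : Mer) (u : Additive (Gamma0 N) →+ ZMod p), y ≠ 0 →
      (∀ γ : Gamma0 N, (fun γ : Gamma0 N => compMer (γ : SL(2, ℤ))) γ y =
        zetaMer p ^ (u (Additive.ofMul γ)).val * y) →
      ∀ γ : Gamma0 N, (fun γ : Gamma0 N => compMer (γ : SL(2, ℤ))) γ (heckeProd ℓ y) =
        zetaMer p ^ (heckeHom hℓN (ZMod p) u (Additive.ofMul γ)).val * heckeProd ℓ y :=
  fun y u _ hy γ => hHp_heckeProd hℓN y u hy γ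

end Fermat.Agent.S29.Hk.HpInst
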