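import Mathlib
import Fermat.Agent.S29.Hk.Equivariance
import Fermat.Agent.S29.Hk.NormPhiC
import Fermat.Agent.S29.Hk.HpInst
import Fermat.Agent.S29.ModFunC.CrossLevelC
import Fermat.Agent.S29.Kummer.BlockKC
import Fermat.Agent.S29.NonVanish.BlockB

/-!
# S29 (R3, block Hk closed): the analytic half of (Hk) at the bridge `PhiC N`, unconditionally

* `hA_PhiC` : **(A)** `PhiC N (Norm_α (β f)) = heckeProd ℓ (PhiC N f)` for `ℓ` prime, `ℓ ∤ N`
  (`Hk/NormPhiC` + `ModFunC/CrossLevelC`), in the spelling of `Hk/Equivariance` and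
  `Kummer/BlockKC`;
* `hkInput_PhiC` : the ledger entry `Kummer.BlockKC.HkInput N p (PhiC N)`;
* `blockKC_of_blocks` : `Kummer.ClassMapC.Blocks N p (PhiC N) → Skeleton.BlockKC N p (D0 N p)`
  (`D0` = the common top data of `NonVanish/BlockB`), through `Hk/Equivariance.blockKC_of`;
* `blockKC_of_blocks'` : the same through `Kummer/BlockKC.blockKC_of`.

So block (KC) of `NonVanish/Skeleton` is reduced to the ledger `Blocks N p (PhiC N)` alone.
-/

set_option autoImplicit false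
set_option linter.unusedSectionVars false
set_option linter.style.haveILetI false

noncomputable section

namespace Fermat.Agent.S29.Hk.BlockKCC

open AlgebraicCurve ModularCurve CongruenceSubgroup ModularForm
open Fermat.Agent.S24 Fermat.Agent.S24.PsiLe
open Fermat.Agent.S29.ModFunC (PhiC)
open Fermat.Agent.S29.Kummer.ClassMapC
open Fermat.Agent.S29.Hk.HeckeProd Fermat.Agent.S29.Hk.Equivariance Fermat.Agent.S29.Betti
open Fermat.Agent.S29.NonVanish
open scoped MatrixGroups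

variable (N : ℕ) [NeZero N]

/-- **(A)**: the norm formula at the bridge `PhiC N`, unconditionally. -/
theorem hA_PhiC (ℓ : ℕ) [hℓ : Fact ℓ.Prime] [NeZero ℓ] (hℓN : ¬ ℓ ∣ N)
    (f : FC N) :
    PhiC N (heckeNormC N ℓ f) = heckeProd ℓ (PhiC N f) := by
  have hℓ0 : ℓ ≠ 0 := hℓ.out.ne_zero
  have h := NormPhiC.map_norm_beta_eq_prod (RingHom.id ℂ) N ℓ hℓN hℓ0
    (ModFunC.CrossLevelC.hα N ℓ) (ModFunC.CrossLevelC.hβ N ℓ hℓ0) f
  rw [heckeProd_apply]
  exact h

/-- the ledger entry `HkInput` of `Kummer/BlockKC` at the bridge `PhiC N`. -/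
theorem hkInput_PhiC (p : ℕ) [hp : Fact p.Prime] : Kummer.BlockKC.HkInput N p (PhiC N) := by
  intro ℓ hℓ hℓN
  haveI : NeZero ℓ := ⟨hℓ.out.ne_zero⟩
  haveI : NeZero p := ⟨hp.out.ne_zero⟩
  refine ⟨heckeProd ℓ, fun f => hA_PhiC N ℓ hℓN f, ?_⟩
  intro y u _ hy γ
  have hz : ∀ a : ZMod p, Kummer.BlockKC.zetaMer p ^ a.val
      = algebraMap ℂ Mer (ZMod.stdAddChar a) := by
    intro a
    rw [Kummer.BlockKC.zetaMer, ← map_pow, ZMod.stdAddChar_apply, ZMod.toCircle_apply,
      ← Complex.exp_nat_mul]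
    congr 2
    ring
  rw [hz]
  apply compMer_heckeProd_stdAddChar hℓN u y
  intro δ
  rw [hy δ, hz]

variable (p : ℕ) [hp : Fact p.Prime]

/-- **block (KC) from the ledger `Blocks` alone** (route `Hk/Equivariance`). -/
theorem blockKC_of_blocks (hB : Blocks N p (PhiC N)) : Skeleton.BlockKC N p (BlockB.D0 N p) := by
  refine blockKC_of hB (fun ℓ _ _ hℓN f => hA_PhiC N ℓ hℓN f) (BlockB.D0 N p) ?_ ?_
  · intro u hu
    exact hu
  · intro ℓ hℓN u
    rfl

/-- **block (KC) from the ledger `Blocks` alone** (route `Kummer/BlockKC`). -/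
theorem blockKC_of_blocks' (hB : Blocks N p (PhiC N)) :
    Skeleton.BlockKC N p (Kummer.BlockKC.D0 N p) :=
  Kummer.BlockKC.blockKC_of hB (hkInput_PhiC N p)

end Fermat.Agent.S29.Hk.BlockKCC

end
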