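/-
(Hk-A, unconditional) The hypothesis `hA` of `Hk.Equivariance.wit_hecke / cls_heckeHom / blockKC_of`
at the bridge `Φ = PhiC N`:
`PhiC N (heckeNormC N ℓ f) = heckeProd ℓ (PhiC N f)` for every prime `ℓ ∤ N`.
-/
import Fermat.Agent.S29.Hk.NormPhiC
import Fermat.Agent.S29.Hk.Equivariance
import Fermat.Agent.S29.ModFunC.CrossLevel
import Fermat.Agent.S29.ModFunC.Converse

set_option autoImplicit false

namespace Fermat.Agent.S29.Hk.NormPhiCMain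

open UpperHalfPlane CongruenceSubgroup AlgebraicCurve ModularCurve ModularForm
open Fermat.Agent.S24 Fermat.Agent.S24.PsiLe Fermat.Agent.S29.ModFunC
open Fermat.Agent.S29.Hk.HeckeProd Fermat.Agent.S29.Hk.Equivariance
open P2MW.S_ModularForm_heckeT_slash_eq_self_of_mem_Gamma0.ModularForm.HeckeSlashInvariance
open scoped MatrixGroups OnePoint

noncomputable section

/-- the norm formula at a bridge `PhiK N ι` over any char-0 coefficient field, unconditional. -/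
theorem PhiK_norm_eq_heckeProd {L : Type*} [Field L] [Algebra ℚ L] (ι : L →+* ℂ)
    (N ℓ : ℕ) [NeZero N] [NeZero ℓ] [Fact ℓ.Prime] (hℓN : ¬ ℓ ∣ N) (f : ↥(FK L N)) :
    letI := algebraAlong (heckeAlphaBar L N ℓ)
    PhiK N ι (Algebra.norm ↥(FK L N) (heckeBetaBar L N ℓ f)) = heckeProd ℓ (PhiK N ι f) := by
  have hℓ0 : ℓ ≠ 0 := NeZero.ne ℓ
  have h := NormPhiC.map_norm_beta_eq_prod ι N ℓ hℓN hℓ0
    (CrossLevel.PhiK_heckeAlphaBar N ℓ ι)
    (fun x => by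
      rw [CrossLevel.PhiK_heckeBetaBar' N ℓ ι hℓ0 (NormHecke.det_heckeDiagMatrix_pos hℓ0) x,
        CompGLAdapter.compMerGL_apply_eq]) f
  rw [h, heckeProd_apply]

/-- **`hA` at `Φ = PhiC N`.** -/
theorem hA_PhiC (N ℓ : ℕ) [NeZero N] [NeZero ℓ] [Fact ℓ.Prime] (hℓN : ¬ ℓ ∣ N)
    (f : Kummer.ClassMapC.FC N) :
    ModFunC.PhiC N (heckeNormC N ℓ f) = heckeProd ℓ (ModFunC.PhiC N f) :=
  PhiK_norm_eq_heckeProd (RingHom.id ℂ) N ℓ hℓN f

/-- the form consumed by `Hk.Equivariance.blockKC_of`. -/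
theorem hA_PhiC_all (N : ℕ) [NeZero N] :
    ∀ (ℓ : ℕ) [Fact ℓ.Prime] [NeZero ℓ], ¬ ℓ ∣ N →
      ∀ f : Kummer.ClassMapC.FC N,
        ModFunC.PhiC N (heckeNormC N ℓ f) = heckeProd ℓ (ModFunC.PhiC N f) :=
  fun ℓ _ _ hℓN f => hA_PhiC N ℓ hℓN f

open Fermat.Agent.S29.NonVanish.Skeleton Fermat.Agent.S29.Kummer.ClassMapC Fermat.Agent.S29.Betti in
/-- **block (KC)** at the bridge `PhiC N`: only the `Blocks` ledger remains as a hypothesis. -/
theorem blockKC_PhiC {N p : ℕ} [NeZero N] [Fact p.Prime] (hB : Blocks N p (ModFunC.PhiC N))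
    (D : TopData N p) (hDP : D.P ≤ admSub N p)
    (hDT : ∀ (ℓ : GoodPrime N p) (hℓN : ¬ ((ℓ.1 : ℕ)) ∣ N) (u : D.P),
      haveI : Fact (ℓ.1 : ℕ).Prime := ⟨ℓ.1.2⟩
      ((D.T ℓ u : D.P) : Additive (Gamma0 N) →+ ZMod p) =
        heckeHom hℓN (ZMod p) (u : Additive (Gamma0 N) →+ ZMod p)) :
    BlockKC N p D :=
  blockKC_of hB (hA_PhiC_all N) D hDP hDT

end

end Fermat.Agent.S29.Hk.NormPhiCMain
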